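import Mathlib

/-! # S41 / PD : Poincaré duality by the Farey pairing.  Definitions.

`Cusp = OnePoint ℚ` with the Mathlib action of `GL (Fin 2) ℚ`; `g ∙ s = mapGL ℚ g • s` for `g : SL(2,ℤ)`.
A *potential* for `Γ` is `P : Cusp → A` with `P (γ ∙ s) = P s + c(γ)`.  Base Farey triangle `(∞, 0, -1)`, rotated by
`U = S * T` (`∞ → 0 → -1 → ∞`).  `sumQ Γ Ψ = ∑_{Γ\G} Ψ` for a left-`Γ`-invariant `Ψ : G → A`, indexed by `G ⧸ Γ` via `g ↦ g⁻¹`.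
`b3 Γ P Q = ∑_{g ∈ Γ\G} det (P,Q)(g·triangle)` is the Farey pairing (`= 6 ×` the unimodular one). -/

set_option autoImplicit false

open Matrix Matrix.SpecialLinearGroup OnePoint ModularGroup
open scoped MatrixGroups

namespace Fermat.Agent.S41.PD

abbrev Cusp := OnePoint ℚ

/-- action of `SL(2,ℤ)` on the cusps. -/
noncomputable def act (g : SL(2, ℤ)) (s : Cusp) : Cusp := (mapGL ℚ g : GL (Fin 2) ℚ) • s

@[inherit_doc] scoped infixr:73 " ∙ " => act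

lemma act_def (g : SL(2, ℤ)) (s : Cusp) : g ∙ s = (mapGL ℚ g : GL (Fin 2) ℚ) • s := rfl

lemma act_mul (g h : SL(2, ℤ)) (s : Cusp) : (g * h) ∙ s = g ∙ h ∙ s := by
  simp only [act_def, map_mul, mul_smul]

lemma act_one (s : Cusp) : (1 : SL(2, ℤ)) ∙ s = s := by
  simp only [act_def, map_one, one_smul]

lemma act_inv_act (g : SL(2, ℤ)) (s : Cusp) : g⁻¹ ∙ g ∙ s = s := by
  rw [← act_mul, inv_mul_cancel, act_one]

lemma act_act_inv (g : SL(2, ℤ)) (s : Cusp) : g ∙ g⁻¹ ∙ s = s := by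
  rw [← act_mul, mul_inv_cancel, act_one]

/-- the cusp `0`. -/
def c0 : Cusp := ((0 : ℚ) : OnePoint ℚ)

/-- the cusp `-1`. -/
def cm1 : Cusp := ((-1 : ℚ) : OnePoint ℚ)

lemma mapGL_entry (g : SL(2, ℤ)) (i j : Fin 2) :
    (mapGL ℚ g : GL (Fin 2) ℚ) i j = (g i j : ℚ) := by
  simp [mapGL_coe_matrix]

lemma act_infty (g : SL(2, ℤ)) :
    g ∙ (∞ : Cusp) = if g 1 0 = 0 then ∞ else (((g 0 0 : ℚ) / (g 1 0 : ℚ) : ℚ) : OnePoint ℚ) := by
  rw [act_def, smul_infty_eq_ite, mapGL_entry, mapGL_entry]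
  simp

lemma act_coe (g : SL(2, ℤ)) (k : ℚ) :
    g ∙ ((k : ℚ) : OnePoint ℚ) = if (g 1 0 : ℚ) * k + g 1 1 = 0 then ∞ else
      ((((g 0 0 : ℚ) * k + g 0 1) / ((g 1 0 : ℚ) * k + g 1 1) : ℚ) : OnePoint ℚ) := by
  rw [act_def, smul_some_eq_ite]
  simp only [mapGL_entry]

lemma act_neg (g : SL(2, ℤ)) (s : Cusp) : (-g) ∙ s = g ∙ s := by
  induction s using OnePoint.rec with
  | infty =>
    rw [act_infty, act_infty]
    by_cases h : g 1 0 = 0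
    · simp [h]
    · simp [h, neg_div_neg_eq]
  | coe k =>
    rw [act_coe, act_coe]
    have e1 : (((-g) 1 0 : ℤ) : ℚ) * k + (((-g) 1 1 : ℤ) : ℚ) = -((g 1 0 : ℚ) * k + g 1 1) := by
      simp; ring
    have e2 : (((-g) 0 0 : ℤ) : ℚ) * k + (((-g) 0 1 : ℤ) : ℚ) = -((g 0 0 : ℚ) * k + g 0 1) := by
      simp; ring
    rw [e1, e2, neg_div_neg_eq]
    simp only [neg_eq_zero]

lemma S_infty : S ∙ (∞ : Cusp) = c0 := by
  rw [act_infty]; simp [coe_S, c0]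

lemma S_c0 : S ∙ c0 = ∞ := by
  rw [c0, act_coe]; simp [coe_S]

lemma T_infty : T ∙ (∞ : Cusp) = ∞ := by
  rw [act_infty]; simp [coe_T]

lemma T_cm1 : T ∙ cm1 = c0 := by
  rw [cm1, act_coe]; simp [coe_T, c0]

lemma U_infty : (S * T) ∙ (∞ : Cusp) = c0 := by rw [act_mul, T_infty, S_infty]

lemma T_c0 : T ∙ c0 = ((1 : ℚ) : OnePoint ℚ) := by
  rw [c0, act_coe]; simp [coe_T]

lemma U_c0 : (S * T) ∙ c0 = cm1 := by
  rw [act_mul, T_c0, act_coe]; simp [coe_S, cm1]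

lemma U_cm1 : (S * T) ∙ cm1 = ∞ := by rw [act_mul, T_cm1, S_c0]

section Pot

variable {A : Type*} [AddCommGroup A]

/-- `P` is a potential (primitive, modular symbol) for `Γ`. -/
def IsPot (Γ : Subgroup SL(2, ℤ)) (P : Cusp → A) : Prop :=
  ∀ γ ∈ Γ, ∃ c : A, ∀ s, P (γ ∙ s) = P s + c

/-- `P` is `Γ`-invariant (a function on the cusps of `Γ`: boundary symbol). -/
def IsInv (Γ : Subgroup SL(2, ℤ)) (P : Cusp → A) : Prop :=
  ∀ γ ∈ Γ, ∀ s, P (γ ∙ s) = P s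

lemma IsInv.isPot {Γ : Subgroup SL(2, ℤ)} {P : Cusp → A} (h : IsInv Γ P) : IsPot Γ P :=
  fun γ hγ => ⟨0, fun s => by rw [h γ hγ, add_zero]⟩

/-- invariant 1-cochains -/
def Inv1 (Γ : Subgroup SL(2, ℤ)) (η : Cusp → Cusp → A) : Prop :=
  ∀ γ ∈ Γ, ∀ a b, η (γ ∙ a) (γ ∙ b) = η a b

/-- invariant 2-cochains -/
def Inv2 (Γ : Subgroup SL(2, ℤ)) (D : Cusp → Cusp → Cusp → A) : Prop :=
  ∀ γ ∈ Γ, ∀ a b c, D (γ ∙ a) (γ ∙ b) (γ ∙ c) = D a b c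

def Alt1 (η : Cusp → Cusp → A) : Prop := ∀ a b, η b a = - η a b

def Alt2 (D : Cusp → Cusp → Cusp → A) : Prop :=
  (∀ a b c, D b a c = - D a b c) ∧ (∀ a b c, D a c b = - D a b c)

/-- coboundary of a 1-cochain -/
def d1 (η : Cusp → Cusp → A) (a b c : Cusp) : A := η b c - η a c + η a b

def Coc2 (D : Cusp → Cusp → Cusp → A) : Prop :=
  ∀ a b c d, D b c d - D a c d + D a b d - D a b c = 0

/-- `∑_{Γ\G} Ψ`. -/
noncomputable def sumQ (Γ : Subgroup SL(2, ℤ)) [Fintype (SL(2, ℤ) ⧸ Γ)] (Ψ : SL(2, ℤ) → A) : A :=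
  ∑ x : SL(2, ℤ) ⧸ Γ, Ψ (x.out)⁻¹

/-- evaluation of an invariant 2-cochain on the fundamental class (sum over Farey triangles mod `Γ`, each counted
three times). -/
noncomputable def Int2 (Γ : Subgroup SL(2, ℤ)) [Fintype (SL(2, ℤ) ⧸ Γ)]
    (D : Cusp → Cusp → Cusp → A) : A :=
  sumQ Γ (fun g => D (g ∙ ∞) (g ∙ c0) (g ∙ cm1))

end Pot

section Ring

variable {R : Type*} [CommRing R]

/-- the area 2-cocycle of a pair of potentials. -/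
def w2 (P Q : Cusp → R) (a b c : Cusp) : R :=
  (P b - P a) * (Q c - Q a) - (Q b - Q a) * (P c - P a)

/-- the Farey pairing. -/
noncomputable def b3 (Γ : Subgroup SL(2, ℤ)) [Fintype (SL(2, ℤ) ⧸ Γ)] (P Q : Cusp → R) : R :=
  Int2 Γ (w2 P Q)

lemma w2_alt (P Q : Cusp → R) : Alt2 (w2 P Q) :=
  ⟨fun a b c => by unfold w2; ring, fun a b c => by unfold w2; ring⟩

lemma w2_coc (P Q : Cusp → R) : Coc2 (w2 P Q) := fun a b c d => by unfold w2; ring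

lemma w2_inv {Γ : Subgroup SL(2, ℤ)} {P Q : Cusp → R} (hP : IsPot Γ P) (hQ : IsPot Γ Q) :
    Inv2 Γ (w2 P Q) := by
  intro γ hγ a b c
  obtain ⟨x, hx⟩ := hP γ hγ
  obtain ⟨y, hy⟩ := hQ γ hγ
  unfold w2
  rw [hx, hx, hx, hy, hy, hy]
  ring

lemma w2_swap (P Q : Cusp → R) (a b c : Cusp) : w2 Q P a b c = - w2 P Q a b c := by
  unfold w2; ring

/-- `w2 B Q` is the coboundary of an explicit alternating 1-cochain. -/
lemma w2_eq_d1 (B Q : Cusp → R) (a b c : Cusp) :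
    w2 B Q a b c = d1 (fun a b => (B a + B b) * (Q b - Q a)) a b c := by
  unfold w2 d1; ring

end Ring

end Fermat.Agent.S41.PD
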