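import Fermat.Agent.S41.PD.Exact

/-! # S41 / PD-12 : formal properties of `b3`: bilinearity, antisymmetry, boundary symbols are in the radical, restriction/corestriction adjunction.

`b3_of_isInv`: `w2_eq_d1` + `Int2_d1` (the 1-cochain `(B a + B b) * (Q b - Q a)` is `Γ`-invariant and alternating).
`tr_isPot`: right multiplication by `γ ∈ Γ` permutes `Γ'\Γ`: `y.out⁻¹ γ = γ'_y (y').out⁻¹`, `y' = γ⁻¹ • y`, `γ'_y ∈ Γ'`; `Equiv.sum_comp`.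
`b3_tr`: `sumQ_tower` for `Ψ g = w2 P Q (g∙∞) (g∙c0) (g∙cm1)`; for `r ∈ Γ`: `w2 P Q (r∙a) (r∙b) (r∙c) = w2 P (Q ∘ r) a b c` since `P (r∙s) = P s + c`; `w2` is additive in `Q`. -/

set_option autoImplicit false

open Matrix Matrix.SpecialLinearGroup OnePoint ModularGroup
open scoped MatrixGroups

namespace Fermat.Agent.S41.PD

/-- corestriction (trace) of potentials from `Γ'` to `Γ`. -/
noncomputable def tr {A : Type*} [AddCommGroup A] (Γ Γ' : Subgroup SL(2, ℤ))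
    [Fintype (Γ ⧸ Γ'.subgroupOf Γ)] (Q : Cusp → A) (s : Cusp) : A :=
  ∑ y : Γ ⧸ Γ'.subgroupOf Γ, Q (((y.out : Γ) : SL(2, ℤ))⁻¹ ∙ s)

/-- right translation by `γ ∈ Γ` permutes `Γ'\Γ`. -/
lemma tr_act {A : Type*} [AddCommGroup A] {Γ Γ' : Subgroup SL(2, ℤ)}
    [Fintype (Γ ⧸ Γ'.subgroupOf Γ)] {γ : SL(2, ℤ)} (hγ : γ ∈ Γ) :
    ∃ δ : Γ ⧸ Γ'.subgroupOf Γ → SL(2, ℤ), (∀ y, δ y ∈ Γ') ∧ ∀ (Q : Cusp → A) (s : Cusp),
      tr Γ Γ' Q (γ ∙ s) = ∑ y : Γ ⧸ Γ'.subgroupOf Γ,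
        Q (δ y ∙ ((((⟨γ, hγ⟩ : Γ)⁻¹ • y).out : Γ) : SL(2, ℤ))⁻¹ ∙ s) := by
  set g : Γ := ⟨γ, hγ⟩ with hg
  have hmem : ∀ y : Γ ⧸ Γ'.subgroupOf Γ, (g⁻¹ * y.out)⁻¹ * (g⁻¹ • y).out ∈ Γ'.subgroupOf Γ := by
    intro y
    rw [← QuotientGroup.eq]
    have h1 : (((g⁻¹ • y).out : Γ) : Γ ⧸ Γ'.subgroupOf Γ) = g⁻¹ • y := Quotient.out_eq' _
    rw [h1]
    conv_rhs => rw [← Quotient.out_eq' y]
    rfl
  refine ⟨fun y => (((g⁻¹ * y.out)⁻¹ * (g⁻¹ • y).out : Γ) : SL(2, ℤ)), fun y => ?_, ?_⟩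
  · exact Subgroup.mem_subgroupOf.1 (hmem y)
  · intro Q s
    unfold tr
    apply Finset.sum_congr rfl
    intro y _
    rw [← act_mul, ← act_mul]
    congr 2
    simp only [Subgroup.coe_mul, Subgroup.coe_inv, hg, _root_.mul_inv_rev, inv_inv]
    group

theorem tr_isPot {A : Type*} [AddCommGroup A] {Γ Γ' : Subgroup SL(2, ℤ)}
    [Fintype (Γ ⧸ Γ'.subgroupOf Γ)] (hle : Γ' ≤ Γ) {Q : Cusp → A} (hQ : IsPot Γ' Q) :
    IsPot Γ (tr Γ Γ' Q) := by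
  intro γ hγ
  obtain ⟨δ, hδ, h⟩ := tr_act (A := A) (Γ' := Γ') hγ
  choose c hc using hQ
  refine ⟨∑ y, c (δ y) (hδ y), fun s => ?_⟩
  rw [h]
  simp only [hc _ (hδ _), Finset.sum_add_distrib]
  congr 1
  exact Equiv.sum_comp (MulAction.toPerm ((⟨γ, hγ⟩ : Γ)⁻¹))
    (fun y : Γ ⧸ Γ'.subgroupOf Γ => Q (((y.out : Γ) : SL(2, ℤ))⁻¹ ∙ s))

theorem tr_isInv {A : Type*} [AddCommGroup A] {Γ Γ' : Subgroup SL(2, ℤ)}
    [Fintype (Γ ⧸ Γ'.subgroupOf Γ)] (hle : Γ' ≤ Γ) {Q : Cusp → A} (hQ : IsInv Γ' Q) :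
    IsInv Γ (tr Γ Γ' Q) := by
  intro γ hγ s
  obtain ⟨δ, hδ, h⟩ := tr_act (A := A) (Γ' := Γ') hγ
  rw [h]
  simp only [hQ _ (hδ _)]
  exact Equiv.sum_comp (MulAction.toPerm ((⟨γ, hγ⟩ : Γ)⁻¹))
    (fun y : Γ ⧸ Γ'.subgroupOf Γ => Q (((y.out : Γ) : SL(2, ℤ))⁻¹ ∙ s))

variable {R : Type*} [CommRing R] (Γ : Subgroup SL(2, ℤ)) [Fintype (SL(2, ℤ) ⧸ Γ)]

lemma b3_swap (P Q : Cusp → R) : b3 Γ Q P = - b3 Γ P Q := by
  simp only [b3, Int2, sumQ, w2_swap P Q, Finset.sum_neg_distrib]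

lemma w2_add_right (P Q Q' : Cusp → R) (a b c : Cusp) :
    w2 P (Q + Q') a b c = w2 P Q a b c + w2 P Q' a b c := by
  simp only [w2, Pi.add_apply]; ring

lemma w2_smul_right (k : R) (P Q : Cusp → R) (a b c : Cusp) :
    w2 P (k • Q) a b c = k * w2 P Q a b c := by
  simp only [w2, Pi.smul_apply, smul_eq_mul]; ring

lemma w2_sum_right {ι : Type*} (t : Finset ι) (P : Cusp → R) (Q : ι → Cusp → R) (a b c : Cusp) :
    w2 P (fun s => ∑ i ∈ t, Q i s) a b c = ∑ i ∈ t, w2 P (Q i) a b c := by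
  simp only [w2, ← Finset.sum_sub_distrib, Finset.mul_sum, Finset.sum_mul]

lemma b3_add_right (P Q Q' : Cusp → R) : b3 Γ P (Q + Q') = b3 Γ P Q + b3 Γ P Q' := by
  simp only [b3, Int2, sumQ, w2_add_right, Finset.sum_add_distrib]

lemma b3_smul_right (c : R) (P Q : Cusp → R) : b3 Γ P (c • Q) = c * b3 Γ P Q := by
  simp only [b3, Int2, sumQ, w2_smul_right, Finset.mul_sum]

lemma b3_add_const_right (P Q : Cusp → R) (c : R) : b3 Γ P (fun s => Q s + c) = b3 Γ P Q := by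
  have : ∀ a b d, w2 P (fun s => Q s + c) a b d = w2 P Q a b d := by
    intro a b d
    simp only [w2]; ring
  simp only [b3, Int2, sumQ, this]

theorem b3_of_isInv {B Q : Cusp → ℤ} (hB : IsInv Γ B) (hQ : IsPot Γ Q) : b3 Γ B Q = 0 := by
  have e : w2 B Q = d1 (fun a b => (B a + B b) * (Q b - Q a)) := by
    funext a b c
    exact w2_eq_d1 B Q a b c
  unfold b3
  rw [e]
  apply Int2_d1 Γ (fun a ha => by omega)
  · intro γ hγ a b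
    obtain ⟨c, hc⟩ := hQ γ hγ
    simp only
    rw [hB γ hγ, hB γ hγ, hc, hc]
    ring
  · intro a b
    ring

/-- **PD-adj** -/
theorem b3_tr {Γ' : Subgroup SL(2, ℤ)} (hle : Γ' ≤ Γ) [Fintype (SL(2, ℤ) ⧸ Γ')]
    [Fintype (Γ ⧸ Γ'.subgroupOf Γ)] {P Q : Cusp → R} (hP : IsPot Γ P) (hQ : IsPot Γ' Q) :
    b3 Γ' P Q = b3 Γ P (tr Γ Γ' Q) := by
  have hP' : IsPot Γ' P := fun γ hγ => hP γ (hle hγ)
  have hinv := w2_inv hP' hQ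
  unfold b3 Int2
  rw [sumQ_tower Γ hle (Ψ := fun g => w2 P Q (g ∙ ∞) (g ∙ c0) (g ∙ cm1)) (fun γ hγ g => by
    show w2 P Q ((γ * g) ∙ ∞) ((γ * g) ∙ c0) ((γ * g) ∙ cm1) = _
    rw [act_mul, act_mul, act_mul, hinv γ hγ])]
  congr 1
  funext g
  have e : tr Γ Γ' Q = fun s => ∑ y : Γ ⧸ Γ'.subgroupOf Γ, Q (((y.out : Γ) : SL(2, ℤ))⁻¹ ∙ s) := rfl
  rw [e, w2_sum_right]
  apply Finset.sum_congr rfl
  intro y _
  obtain ⟨c, hc⟩ := hP (((y.out : Γ) : SL(2, ℤ))⁻¹) (Γ.inv_mem (y.out : Γ).2)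
  rw [act_mul, act_mul, act_mul]
  simp only [w2]
  rw [hc, hc, hc]
  ring

end Fermat.Agent.S41.PD
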