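import Fermat.Agent.S41.PD.Defs

/-! # S41 / PD-2 : cusps as `G / ±⟨T⟩`; Farey connectivity.

* `exists_cusp_fun`: every cusp is `g ∙ ∞` (`OnePoint.exists_mem_SL2 ℤ`); `g ∙ ∞ = g' ∙ ∞` ⟹ `(g⁻¹ g') ∙ ∞ = ∞` ⟹ lower left entry `0`
  ⟹ `g⁻¹ g' = ± T^n` (`ModularGroup.exists_eq_T_zpow_of_c_eq_zero`); `F (g * T^n) = F g` by induction on `n : ℤ`.
* `const_of_farey`: `f g := z (g ∙ ∞)` satisfies `f (g*S) = f g` (as `S ∙ ∞ = c0`), `f (g*T) = f g`; `S, T` generate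
  (`Matrix.SpecialLinearGroup.SL2Z_generators`, `Subgroup.closure_induction`), so `f g = f 1`. -/

set_option autoImplicit false

open Matrix Matrix.SpecialLinearGroup OnePoint ModularGroup
open scoped MatrixGroups

namespace Fermat.Agent.S41.PD

variable {A : Type*}

/-- an element fixing `∞` is `± T^n`. -/
lemma eq_T_zpow_of_c_eq_zero {g : SL(2, ℤ)} (hc : g 1 0 = 0) :
    ∃ n : ℤ, g = T ^ n ∨ g = -T ^ n := by
  have had := g.det_coe
  replace had : g 0 0 * g 1 1 = 1 := by rw [det_fin_two, hc] at had; lia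
  rcases Int.eq_one_or_neg_one_of_mul_eq_one' had with (⟨ha, hd⟩ | ⟨ha, hd⟩)
  · refine ⟨g 0 1, Or.inl ?_⟩
    ext i j; fin_cases i <;> fin_cases j <;>
      simp [ha, hc, hd, coe_T_zpow, show (1 : Fin (0 + 2)) = (1 : Fin 2) from rfl]
  · refine ⟨-(g 0 1), Or.inr ?_⟩
    ext i j; fin_cases i <;> fin_cases j <;>
      simp [ha, hc, hd, coe_T_zpow, show (1 : Fin (0 + 2)) = (1 : Fin 2) from rfl]

lemma c_eq_zero_of_act_infty {g : SL(2, ℤ)} (h : g ∙ (∞ : Cusp) = ∞) : g 1 0 = 0 := by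
  rw [act_infty] at h
  by_contra hc
  rw [if_neg hc] at h
  exact OnePoint.coe_ne_infty _ h

lemma apply_mul_T_zpow (F : SL(2, ℤ) → A) (hT : ∀ g, F (g * T) = F g) (g : SL(2, ℤ)) (n : ℤ) :
    F (g * T ^ n) = F g := by
  induction n using Int.induction_on with
  | zero => simp
  | succ n ih => rw [_root_.zpow_add_one, ← mul_assoc, hT, ih]
  | pred n ih =>
    rw [← hT (g * T ^ (-(n : ℤ) - 1)), mul_assoc, ← _root_.zpow_add_one]
    simpa using ih

theorem exists_cusp_fun (F : SL(2, ℤ) → A) (hT : ∀ g, F (g * T) = F g) (hneg : ∀ g, F (-g) = F g) :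
    ∃ ξ : Cusp → A, ∀ g, ξ (g ∙ ∞) = F g := by
  have hsurj : ∀ c : Cusp, ∃ g : SL(2, ℤ), g ∙ (∞ : Cusp) = c := fun c => exists_mem_SL2 ℤ c
  choose r hr using hsurj
  refine ⟨fun c => F (r c), ?_⟩
  intro g
  have h1 : (g⁻¹ * r (g ∙ ∞)) ∙ (∞ : Cusp) = ∞ := by
    rw [act_mul, hr, act_inv_act]
  obtain ⟨n, hn | hn⟩ := eq_T_zpow_of_c_eq_zero (c_eq_zero_of_act_infty h1)
  · have : r (g ∙ ∞) = g * T ^ n := by rw [← hn, mul_inv_cancel_left]
    show F (r (g ∙ ∞)) = F g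
    rw [this, apply_mul_T_zpow F hT]
  · have : r (g ∙ ∞) = -(g * T ^ n) := by
      rw [← mul_neg, ← hn, mul_inv_cancel_left]
    show F (r (g ∙ ∞)) = F g
    rw [this, hneg, apply_mul_T_zpow F hT]

theorem const_of_farey (z : Cusp → A) (h : ∀ g : SL(2, ℤ), z (g ∙ c0) = z (g ∙ ∞)) :
    ∀ a b, z a = z b := by
  have hS : ∀ g : SL(2, ℤ), z ((g * S) ∙ ∞) = z (g ∙ ∞) := by
    intro g
    rw [act_mul, S_infty, h]
  have hT : ∀ g : SL(2, ℤ), z ((g * T) ∙ ∞) = z (g ∙ ∞) := by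
    intro g
    rw [act_mul, T_infty]
  have hall : ∀ u : SL(2, ℤ), ∀ g : SL(2, ℤ), z ((g * u) ∙ ∞) = z (g ∙ ∞) := by
    intro u
    have hu : u ∈ Subgroup.closure ({S, T} : Set SL(2, ℤ)) := by
      rw [SpecialLinearGroup.SL2Z_generators]; trivial
    induction hu using Subgroup.closure_induction with
    | mem x hx =>
      rcases hx with rfl | rfl
      · exact hS
      · exact hT
    | one => intro g; rw [mul_one]
    | mul x y _ _ ihx ihy => intro g; rw [← mul_assoc, ihy, ihx]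
    | inv x _ ih =>
      intro g
      have := ih (g * x⁻¹)
      rw [inv_mul_cancel_right] at this
      exact this.symm
  have hone : ∀ c : Cusp, z c = z ∞ := by
    intro c
    obtain ⟨g, rfl⟩ : ∃ g : SL(2, ℤ), g ∙ (∞ : Cusp) = c := exists_mem_SL2 ℤ c
    have := hall g 1
    rwa [one_mul, act_one] at this
  intro a b
  rw [hone a, hone b]

end Fermat.Agent.S41.PD
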