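import Fermat.Agent.S41.PD.IntZero
import Fermat.Agent.S41.PD.CuspG
import Fermat.Agent.S41.FareySC

/-! # S41 / PD-7, PD-8 : `Int2 (d η) = 0`;  invariant primitives of invariant 2-cocycles.

**PD-7** `Int2_d1`.  `e g := η (g∙∞) (g∙c0)` is left-`Γ`-invariant.  `d1 η (g∙∞) (g∙c0) (g∙cm1) = e (g*U) + e (g*U*U) + e g` (`U = S*T`; `U_infty`, `U_c0`, `U_cm1`, `Alt1`),
so `Int2 = 3 • sumQ e` (`sumQ_mul_right`); `e (g*S) = - e g`, so `sumQ e = - sumQ e`.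

**PD-8** `exists_inv_primitive`.  `ε g := e g - D ∞ (g∙∞) (g∙c0)` satisfies the hypotheses of `farey_simply_connected` (cocycle identity with first argument `∞`,
`act_neg`, `Alt2`).  Get `F`, then `ξ` with `ξ (g∙∞) = F g` (`exists_cusp_fun`), `η a b := D ∞ a b + ξ b - ξ a`.  `d1 η = D` (cocycle identity).
`η (g∙∞) (g∙c0) = e g`.  Invariance: for `γ ∈ Γ`, `ζ a b := η (γ∙a) (γ∙b) - η a b` has `d1 ζ = 0`, so `ζ a b = z b - z a`, `z b = ζ ∞ b`
(`ζ a a = 0`), and `ζ (g∙∞) (g∙c0) = e (γ*g) - e g = 0`, so `z` is constant (`const_of_farey`).  `Alt1 η` from `D a b a = 0 = D a a a`. -/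

set_option autoImplicit false

open Matrix Matrix.SpecialLinearGroup OnePoint ModularGroup
open scoped MatrixGroups

namespace Fermat.Agent.S41.PD

variable {A : Type*} [AddCommGroup A] (Γ : Subgroup SL(2, ℤ))

/-- **PD-8** -/
theorem exists_inv_primitive (h2 : ∀ a : A, a + a = 0 → a = 0) (D : Cusp → Cusp → Cusp → A)
    (hinv : Inv2 Γ D) (halt : Alt2 D)
    (hcoc : Coc2 D) (e : SL(2, ℤ) → A) (heΓ : ∀ γ ∈ Γ, ∀ g, e (γ * g) = e g)
    (heneg : ∀ g, e (-g) = e g) (heS : ∀ g, e (g * S) = - e g)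
    (heU : ∀ g, e g + e (g * (S * T)) + e (g * (S * T) * (S * T)) = D (g ∙ ∞) (g ∙ c0) (g ∙ cm1)) :
    ∃ η : Cusp → Cusp → A, Inv1 Γ η ∧ Alt1 η ∧ ∀ a b c, d1 η a b c = D a b c := by
  have _ := h2
  -- the cocycle identity with first argument `∞`
  have hcone : ∀ x y z : Cusp, D x y z = D ∞ y z - D ∞ x z + D ∞ x y := by
    intro x y z
    have := hcoc ∞ x y z
    rw [sub_eq_zero] at this
    rw [← this]
    abel
  have hgS : ∀ g : SL(2, ℤ), (g * S) ∙ (∞ : Cusp) = g ∙ c0 := fun g => by rw [act_mul, S_infty]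
  have hgS0 : ∀ g : SL(2, ℤ), (g * S) ∙ c0 = g ∙ (∞ : Cusp) := fun g => by rw [act_mul, S_c0]
  have hgU : ∀ g : SL(2, ℤ), (g * (S * T)) ∙ (∞ : Cusp) = g ∙ c0 := fun g => by
    rw [act_mul, U_infty]
  have hgU0 : ∀ g : SL(2, ℤ), (g * (S * T)) ∙ c0 = g ∙ cm1 := fun g => by rw [act_mul, U_c0]
  have hgUm : ∀ g : SL(2, ℤ), (g * (S * T)) ∙ cm1 = g ∙ (∞ : Cusp) := fun g => by
    rw [act_mul, U_cm1]
  obtain ⟨F, hFT, hFneg, hFS⟩ := farey_simply_connected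
    (fun g => e g - D ∞ (g ∙ ∞) (g ∙ c0))
    (fun g => by simp only [heneg, act_neg])
    (fun g => by
      simp only [heS, hgS, hgS0]
      rw [halt.2 ∞ (g ∙ ∞) (g ∙ c0)]
      abel)
    (fun g => by
      simp only [hgU, hgU0, hgUm]
      have h1 := heU g
      have h2' := hcone (g ∙ ∞) (g ∙ c0) (g ∙ cm1)
      have h3 := halt.2 ∞ (g ∙ ∞) (g ∙ cm1)
      have e1 : e g - D ∞ (g ∙ ∞) (g ∙ c0) + (e (g * (S * T)) - D ∞ (g ∙ c0) (g ∙ cm1)) +
          (e (g * (S * T) * (S * T)) - D ∞ (g ∙ cm1) (g ∙ ∞)) =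
          (e g + e (g * (S * T)) + e (g * (S * T) * (S * T))) -
            (D ∞ (g ∙ c0) (g ∙ cm1) + D ∞ (g ∙ cm1) (g ∙ ∞) + D ∞ (g ∙ ∞) (g ∙ c0)) := by abel
      rw [e1, h1, h2', h3]
      abel)
  obtain ⟨ξ, hξ⟩ := exists_cusp_fun F hFT hFneg
  set η : Cusp → Cusp → A := fun a b => D ∞ a b + ξ b - ξ a with hη
  have hd1 : ∀ a b c, d1 η a b c = D a b c := by
    intro a b c
    rw [hcone a b c]
    simp only [d1, hη]
    abel
  have hedge : ∀ g : SL(2, ℤ), η (g ∙ ∞) (g ∙ c0) = e g := by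
    intro g
    simp only [hη]
    rw [← hgS g, hξ, hξ, hFS, hgS]
    abel
  refine ⟨η, ?_, ?_, hd1⟩
  · intro γ hγ a b
    set ζ : Cusp → Cusp → A := fun a b => η (γ ∙ a) (γ ∙ b) - η a b with hζ
    have hdζ : ∀ a b c, ζ b c - ζ a c + ζ a b = 0 := by
      intro a b c
      have h1 := hd1 (γ ∙ a) (γ ∙ b) (γ ∙ c)
      have h2' := hd1 a b c
      rw [hinv γ hγ] at h1
      simp only [d1] at h1 h2'
      have : ζ b c - ζ a c + ζ a b =
          (η (γ ∙ b) (γ ∙ c) - η (γ ∙ a) (γ ∙ c) + η (γ ∙ a) (γ ∙ b)) -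
            (η b c - η a c + η a b) := by
        simp only [hζ]; abel
      rw [this, h1, h2', sub_self]
    have hz : ∀ g : SL(2, ℤ), ζ ∞ (g ∙ c0) = ζ ∞ (g ∙ ∞) := by
      intro g
      have h1 := hdζ ∞ (g ∙ ∞) (g ∙ c0)
      have h2' : ζ (g ∙ ∞) (g ∙ c0) = 0 := by
        simp only [hζ]
        rw [← act_mul, ← act_mul, hedge, hedge, heΓ γ hγ, sub_self]
      rw [h2', zero_sub, neg_add_eq_zero] at h1
      exact h1
    have hconst := const_of_farey (fun b => ζ ∞ b) hz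
    have h1 := hdζ ∞ a b
    have h2' : ζ ∞ b = ζ ∞ a := hconst b a
    rw [h2', sub_add_cancel] at h1
    have : η (γ ∙ a) (γ ∙ b) - η a b = 0 := h1
    exact sub_eq_zero.mp this
  · intro a b
    simp only [hη]
    rw [halt.2 ∞ a b]
    abel

end Fermat.Agent.S41.PD
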