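import Fermat.Agent.S41.PD.Transfer

/-! # S41 / PD-7 : `Int2 (d η) = 0`.

`e g := η (g∙∞) (g∙c0)` is left-`Γ`-invariant.  `d1 η (g∙∞) (g∙c0) (g∙cm1) = e (g*U) + e (g*U*U) + e g` (`U = S*T`; `U_infty`, `U_c0`, `U_cm1`, `Alt1`),
so `Int2 = 3 • sumQ e` (`sumQ_mul_right`); `e (g*S) = - e g`, so `sumQ e = - sumQ e`. -/

set_option autoImplicit false

open Matrix Matrix.SpecialLinearGroup OnePoint ModularGroup
open scoped MatrixGroups

namespace Fermat.Agent.S41.PD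

variable {A : Type*} [AddCommGroup A] (Γ : Subgroup SL(2, ℤ))

/-- **PD-7** -/
theorem Int2_d1 [Fintype (SL(2, ℤ) ⧸ Γ)] (h2 : ∀ a : A, a + a = 0 → a = 0) (η : Cusp → Cusp → A)
    (hinv : Inv1 Γ η) (halt : Alt1 η) : Int2 Γ (d1 η) = 0 := by
  set e : SL(2, ℤ) → A := fun g => η (g ∙ ∞) (g ∙ c0) with he
  have hleft : ∀ γ ∈ Γ, ∀ g, e (γ * g) = e g := by
    intro γ hγ g
    simp only [he, act_mul]
    exact hinv γ hγ _ _
  have hS : ∀ g, e (g * S) = - e g := by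
    intro g
    simp only [he, act_mul, S_infty, S_c0]
    exact halt _ _
  have hU : ∀ g, e (g * (S * T)) = η (g ∙ c0) (g ∙ cm1) := by
    intro g
    simp only [he]
    rw [act_mul g (S * T) ∞, act_mul g (S * T) c0, U_infty, U_c0]
  have hUU : ∀ g, e (g * (S * T) * (S * T)) = η (g ∙ cm1) (g ∙ ∞) := by
    intro g
    rw [hU, act_mul g (S * T) c0, act_mul g (S * T) cm1, U_c0, U_cm1]
  have h0 : sumQ Γ e = 0 := by
    apply h2
    have h1 := sumQ_mul_right Γ hleft S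
    simp only [hS] at h1
    rw [sumQ_neg] at h1
    have : sumQ Γ e + sumQ Γ e = sumQ Γ e + - sumQ Γ e := by rw [h1]
    rw [this, add_neg_cancel]
  have hd : ∀ g, d1 η (g ∙ ∞) (g ∙ c0) (g ∙ cm1)
      = (e (g * (S * T)) + e (g * (S * T) * (S * T))) + e g := by
    intro g
    rw [hU, hUU, d1, halt (g ∙ ∞) (g ∙ cm1)]
    simp only [he]
    abel
  unfold Int2
  simp only [hd]
  rw [sumQ_add, sumQ_add, sumQ_mul_right Γ hleft (S * T)]
  have h3 : sumQ Γ (fun g => e (g * (S * T) * (S * T))) = sumQ Γ e := by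
    have := sumQ_mul_right Γ hleft ((S * T) * (S * T))
    simpa only [mul_assoc] using this
  rw [h3, h0]
  simp

end Fermat.Agent.S41.PD
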