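import Mathlib

/-! # S41 / PD-4, PD-5a, PD-5b, PD-6 : finite combinatorics on `X = Γ\SL(2,ℤ)` (Mathlib only).

`X` finite, `σ υ : Equiv.Perm X`, `σ² = 1`, `υ³ = 1`, `X` connected under `σ, υ`.  `V = (X → ℤ)` (or `ℚ`), `(S f) x = f (σ x)`, `(U f) x = f (υ x)`,
`⟨f,g⟩ = ∑ x, f x * g x` (`S`, `U` are orthogonal: `Equiv.sum_comp`).

**PD-6** `three_dvd_sum`: level sets `{x | c x = t}`, `t ≠ 0`, are `υ`-stable without fixed points, so of cardinality divisible by 3
(`Equiv.Perm.card_fixedPoints_modEq` or a direct orbit argument); `∑ c = ∑_t t * #{c = t}`. -/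

set_option autoImplicit false

namespace Fermat.Agent.S41.PD

variable {X : Type*} [Fintype X] (σ υ : Equiv.Perm X)

/-- **PD-6** -/
theorem three_dvd_sum (hυ : ∀ x, υ (υ (υ x)) = x) (c : X → ℤ) (hc : ∀ x, c (υ x) = c x)
    (hfix : ∀ x, υ x = x → c x = 0) : (3 : ℤ) ∣ ∑ x, c x := by
  classical
  have h1 := Finset.sum_comp (s := (Finset.univ : Finset X)) (fun t : ℤ => t) c
  rw [h1]
  refine Finset.dvd_sum fun t _ => ?_
  rcases eq_or_ne t 0 with rfl | ht
  · simp
  have hfact : Fact (Nat.Prime 3) := ⟨Nat.prime_three⟩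
  let f : Function.End {x // c x = t} := fun x => ⟨υ x, by rw [hc]; exact x.2⟩
  have hf : f ^ 3 ^ 1 = 1 := by
    funext x
    apply Subtype.ext
    exact hυ x
  have h2 := Equiv.Perm.card_fixedPoints_modEq hf
  have h3 : IsEmpty (Function.fixedPoints f) := by
    refine ⟨fun x => ht ?_⟩
    have h4 : υ (x : {x // c x = t}) = (x : {x // c x = t}) := congrArg Subtype.val x.2
    rw [← (x : {x // c x = t}).2]
    exact hfix _ h4
  have h6 : Fintype.card (Function.fixedPoints f) = 0 := Fintype.card_eq_zero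
  rw [h6, Fintype.card_subtype] at h2
  have h5 : 3 ∣ (Finset.univ.filter fun x => c x = t).card := (Nat.modEq_zero_iff_dvd).1 h2
  rw [nsmul_eq_mul]
  exact Dvd.dvd.mul_right (by exact_mod_cast h5) _

end Fermat.Agent.S41.PD
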