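import Fermat.Agent.S41.PD.UniA

/-! # S41 / PD-4, PD-5a, PD-5b, PD-6 : finite combinatorics on `X = Γ\SL(2,ℤ)` (Mathlib only).

`X` finite, `σ υ : Equiv.Perm X`, `σ² = 1`, `υ³ = 1`, `X` connected under `σ, υ`.  `V = (X → ℤ)` (or `ℚ`), `(S f) x = f (σ x)`, `(U f) x = f (υ x)`,
`⟨f,g⟩ = ∑ x, f x * g x` (`S`, `U` are orthogonal: `Equiv.sum_comp`).

**PD-5b** `uni`.  `y x := w (υ x) - w (υ² x)`; PD-5a with `n = 3p`: `y = a + c + 3p e`.  Apply `Δ f x := f (υ x) - f (υ² x)`: `Δ y = -3 w`, `Δ c = 0`, so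
`-3w = Δa + 3p Δe`; `a` is `υ`-invariant mod 3, so `a = a₀ + 3a'` (`a'∘σ = a'`), `w = -Δa' - pΔe`.  Mod `p`, `2h ≡ 1`: `v₀ = h (a' - Ua' + U²a')`, `a' ≡ v₀ + Uv₀`,
`w ≡ v₀ - Uv₀`; `Sa' = a'` and `w + Sw = 0` add up to `2 S v₀ ≡ 2 U v₀`.  Finally replace `v₀` by its residue `v₀ % p`, which satisfies the
relation `v₀ (σ x) = v₀ (υ x)` EXACTLY. -/

set_option autoImplicit false

namespace Fermat.Agent.S41.PD

variable {X : Type*} [Fintype X] (σ υ : Equiv.Perm X)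

/-- **PD-5b** : unimodularity of the Farey pairing, abstract form. -/
theorem uni (hσ : ∀ x, σ (σ x) = x) (hυ : ∀ x, υ (υ (υ x)) = x)
    (hconn : ∀ s : Set X, s.Nonempty → (∀ x ∈ s, σ x ∈ s) → (∀ x ∈ s, υ x ∈ s) → s = Set.univ)
    {p : ℕ} (hp : p.Prime) (hp2 : p ≠ 2) (w : X → ℤ) (hwσ : ∀ x, w (σ x) = - w x)
    (hwυ : ∀ x, w x + w (υ x) + w (υ (υ x)) = 0)
    (hrad : ∀ v : X → ℤ, (∀ x, v (σ x) = - v x) → (∀ x, v x + v (υ x) + v (υ (υ x)) = 0) →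
      (3 * p : ℤ) ∣ ∑ x, v x * (w (υ x) - w (υ (υ x)))) :
    ∃ v₀ : X → ℤ, (∀ x, v₀ (σ x) = v₀ (υ x)) ∧ ∀ x, (p : ℤ) ∣ w x - (v₀ x - v₀ (σ x)) := by
  rcases isEmpty_or_nonempty X with hX | ⟨⟨x₀⟩⟩
  · exact ⟨fun _ => 0, fun x => isEmptyElim x, fun x => isEmptyElim x⟩
  have hp0 : (p : ℤ) ≠ 0 := by exact_mod_cast hp.ne_zero
  obtain ⟨a, c, e, haσ, hcυ, hy⟩ := mem_add_of_dvd σ υ hσ hυ hconn (3 * p : ℤ)
    (mul_ne_zero (by norm_num) hp0) (fun x => w (υ x) - w (υ (υ x))) hrad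
  -- (E1)
  have hE1 : ∀ x, a (υ x) - a (υ (υ x)) = -3 * w x - 3 * p * (e (υ x) - e (υ (υ x))) := by
    intro x
    have h1 := hy (υ x)
    have h2 := hy (υ (υ x))
    simp only [hυ] at h1 h2
    have h3 := hcυ x
    have h4 := hcυ (υ x)
    have h5 := hwυ x
    linear_combination h2 - h1 + h4 + h5
  have h3υ : ∀ x, (3 : ℤ) ∣ a (υ x) - a x := by
    intro x
    have h1 := hE1 (υ (υ x))
    simp only [hυ] at h1
    refine ⟨w (υ (υ x)) + p * (e x - e (υ x)), ?_⟩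
    linear_combination -h1
  have hs : {x | (3 : ℤ) ∣ a x - a x₀} = Set.univ := by
    apply hconn
    · exact ⟨x₀, by simp⟩
    · intro x hx
      simp only [Set.mem_ofPred_eq] at hx ⊢
      rw [haσ]
      exact hx
    · intro x hx
      simp only [Set.mem_ofPred_eq] at hx ⊢
      have := dvd_add (h3υ x) hx
      rwa [sub_add_sub_cancel] at this
  have h3 : ∀ x, (3 : ℤ) ∣ a x - a x₀ := by
    intro x
    have : x ∈ {x | (3 : ℤ) ∣ a x - a x₀} := by rw [hs]; trivial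
    exact this
  choose a' ha' using h3
  have ha'σ : ∀ x, a' (σ x) = a' x := by
    intro x
    have h1 := ha' (σ x)
    have h2 := ha' x
    rw [haσ] at h1
    omega
  have hF1 : ∀ x, w x = -(a' (υ x) - a' (υ (υ x))) - p * (e (υ x) - e (υ (υ x))) := by
    intro x
    have h1 := hE1 x
    have h2 := ha' (υ x)
    have h3 := ha' (υ (υ x))
    have h4 : (3 : ℤ) * (w x - (-(a' (υ x) - a' (υ (υ x))) - p * (e (υ x) - e (υ (υ x))))) = 0 := by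
      linear_combination h1 - h2 + h3
    rcases mul_eq_zero.mp h4 with h | h
    · norm_num at h
    · exact sub_eq_zero.mp h
  -- `2 h = p + 1`
  obtain ⟨k, hk⟩ := hp.odd_of_ne_two hp2
  set h : ℤ := k + 1 with hh
  have h2h : 2 * h = p + 1 := by rw [hh, hk]; push_cast; ring
  set v₀ : X → ℤ := fun x => h * (a' x - a' (υ x) + a' (υ (υ x))) with hv₀
  have hA : ∀ x, (p : ℤ) ∣ v₀ (σ x) - v₀ (υ x) := by
    intro x
    refine ⟨h * ((e (υ (σ x)) - e (υ (υ (σ x)))) + (e (υ x) - e (υ (υ x)))), ?_⟩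
    simp only [hv₀, hυ]
    have h1 := hF1 x
    have h2 := hF1 (σ x)
    have h3 := hwσ x
    have h4 := ha'σ x
    linear_combination h * (h4 - h2 - h1 + h3)
  have hB : ∀ x, (p : ℤ) ∣ w x - (v₀ x - v₀ (υ x)) := by
    intro x
    refine ⟨-(e (υ x) - e (υ (υ x))) - (a' (υ (υ x)) - a' (υ x)), ?_⟩
    simp only [hv₀, hυ]
    have h1 := hF1 x
    linear_combination h1 - (a' (υ (υ x)) - a' (υ x)) * h2h
  have hC : ∀ x, (p : ℤ) ∣ w x - (v₀ x - v₀ (σ x)) := by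
    intro x
    have := dvd_add (hB x) (hA x)
    have e1 : w x - (v₀ x - v₀ (υ x)) + (v₀ (σ x) - v₀ (υ x)) = w x - (v₀ x - v₀ (σ x)) := by ring
    rwa [e1] at this
  refine ⟨fun x => v₀ x % p, fun x => ?_, fun x => ?_⟩
  · exact Int.emod_eq_emod_iff_emod_sub_eq_zero.mpr (Int.emod_eq_zero_of_dvd (hA x))
  · have h1 : v₀ x % p = v₀ x - p * (v₀ x / p) := Int.emod_def _ _
    have h2 : v₀ (σ x) % p = v₀ (σ x) - p * (v₀ (σ x) / p) := Int.emod_def _ _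
    simp only [h1, h2]
    have e1 : w x - (v₀ x - p * (v₀ x / p) - (v₀ (σ x) - p * (v₀ (σ x) / p))) =
        (w x - (v₀ x - v₀ (σ x))) + p * (v₀ x / p - v₀ (σ x) / p) := by ring
    rw [e1]
    exact dvd_add (hC x) (dvd_mul_right _ _)

end Fermat.Agent.S41.PD
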