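import Fermat.Agent.S41.PD.LinAlg4
import Fermat.Agent.S41.PD.UniB
import Fermat.Agent.S41.PD.Three

/-! # S41 / PD : finite combinatorics on `X = Γ\SL(2,ℤ)` (collects PD-4, PD-5a, PD-5b, PD-6). -/
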