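import Mathlib

/-! # S41 / PD-4, PD-5a, PD-5b, PD-6 : finite combinatorics on `X = Γ\SL(2,ℤ)` (Mathlib only).

`X` finite, `σ υ : Equiv.Perm X`, `σ² = 1`, `υ³ = 1`, `X` connected under `σ, υ`.  `V = (X → ℤ)` (or `ℚ`), `(S f) x = f (σ x)`, `(U f) x = f (υ x)`.

**PD-4** `exists_antiinv_norm` (over `ℚ`).  Let `R = {N e : e∘σ = -e}`, `N e = e + Ue + U²e`, `E_x = N δ_x`.  Then `E_x - E_{σ x} = N (δ_x - δ_{σ x}) ∈ R`,
`E_{υ x} = E_x`, so `E_x - E_{x₀} ∈ R` for all `x` by connectivity; for `υ`-invariant `d`: `3 d = ∑ d x • E_x = ∑ d x • (E_x - E_{x₀}) + (∑ d) • E_{x₀}`. -/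

set_option autoImplicit false

namespace Fermat.Agent.S41.PD

variable {X : Type*} [Fintype X] (σ υ : Equiv.Perm X)

/-- **PD-4** -/
theorem exists_antiinv_norm (hσ : ∀ x, σ (σ x) = x) (hυ : ∀ x, υ (υ (υ x)) = x)
    (hconn : ∀ s : Set X, s.Nonempty → (∀ x ∈ s, σ x ∈ s) → (∀ x ∈ s, υ x ∈ s) → s = Set.univ)
    (d : X → ℚ) (hd : ∀ x, d (υ x) = d x) (hsum : ∑ x, d x = 0) :
    ∃ e : X → ℚ, (∀ x, e (σ x) = - e x) ∧ ∀ x, e x + e (υ x) + e (υ (υ x)) = d x := by
  classical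
  rcases isEmpty_or_nonempty X with hX | ⟨⟨x₀⟩⟩
  · exact ⟨0, fun x => (hX.false x).elim, fun x => (hX.false x).elim⟩
  let Anti : Submodule ℚ (X → ℚ) :=
    { carrier := {e | ∀ x, e (σ x) = - e x}
      zero_mem' := fun x => by simp
      add_mem' := fun {a b} ha hb x => by
        simp only [Pi.add_apply, ha x, hb x]; ring
      smul_mem' := fun c a ha x => by
        simp only [Pi.smul_apply, ha x, smul_eq_mul]; ring }
  let Nm : (X → ℚ) →ₗ[ℚ] (X → ℚ) :=
    { toFun := fun e x => e x + e (υ x) + e (υ (υ x))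
      map_add' := fun a b => by ext x; simp only [Pi.add_apply]; ring
      map_smul' := fun c a => by
        ext x; simp only [Pi.smul_apply, smul_eq_mul, RingHom.id_apply]; ring }
  have hNm : ∀ e x, Nm e x = e x + e (υ x) + e (υ (υ x)) := fun _ _ => rfl
  let R : Submodule ℚ (X → ℚ) := Anti.map Nm
  let δ : X → X → ℚ := fun x => Pi.single x 1
  have hδ : ∀ x y, δ x y = if y = x then 1 else 0 := fun x y => by
    simp only [δ, Pi.single_apply]
  -- Claim 1
  have c1 : ∀ x, Nm (δ x) - Nm (δ (σ x)) ∈ R := by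
    intro x
    rw [← map_sub]
    refine Submodule.mem_map_of_mem ?_
    intro y
    simp only [Pi.sub_apply, hδ]
    have h1 : (σ y = x) ↔ (y = σ x) := ⟨fun h => by rw [← h, hσ], fun h => by rw [h, hσ]⟩
    have h2 : (σ y = σ x) ↔ (y = x) := σ.injective.eq_iff
    simp only [h1, h2]
    ring
  -- Claim 2
  have c2 : ∀ x, Nm (δ (υ x)) = Nm (δ x) := by
    intro x
    ext y
    simp only [hNm, hδ]
    have h1 : (υ y = υ x) ↔ (y = x) := υ.injective.eq_iff
    have h2 : (υ (υ y) = υ x) ↔ (υ y = x) := υ.injective.eq_iff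
    have h3 : (υ (υ y) = x) ↔ (y = υ x) := ⟨fun h => by rw [← h, hυ], fun h => by rw [h, hυ]⟩
    simp only [h1, h2, h3]
    ring
  -- Claim 3
  have c3 : ∀ x, Nm (δ x) - Nm (δ x₀) ∈ R := by
    have := hconn {x | Nm (δ x) - Nm (δ x₀) ∈ R} ⟨x₀, by simp⟩ (fun x hx => by
      have h := R.sub_mem hx (c1 x)
      simpa using h) (fun x hx => by
      show Nm (δ (υ x)) - Nm (δ x₀) ∈ R
      rw [c2]; exact hx)
    intro x
    have hx : x ∈ (Set.univ : Set X) := trivial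
    rw [← this] at hx
    exact hx
  -- Claim 4
  have c4 : (3 : ℚ) • d = ∑ x, d x • (Nm (δ x) - Nm (δ x₀)) := by
    ext y
    simp only [Pi.smul_apply, smul_eq_mul, Finset.sum_apply, Pi.sub_apply, mul_sub]
    rw [Finset.sum_sub_distrib, ← Finset.sum_mul, hsum, zero_mul, sub_zero]
    simp only [hNm, hδ, mul_add, mul_ite, mul_one, mul_zero]
    rw [Finset.sum_add_distrib, Finset.sum_add_distrib, Finset.sum_ite_eq, Finset.sum_ite_eq,
      Finset.sum_ite_eq]
    simp only [Finset.mem_univ, if_true, hd]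
    ring
  have c5 : d ∈ R := by
    have h3 : (3 : ℚ) • d ∈ R := by
      rw [c4]
      exact R.sum_mem fun x _ => R.smul_mem _ (c3 x)
    have := R.smul_mem (1 / 3 : ℚ) h3
    rwa [smul_smul, show (1 / 3 : ℚ) * 3 = 1 by norm_num, one_smul] at this
  obtain ⟨e, he, hed⟩ := c5
  exact ⟨e, he, fun x => by rw [← hed, hNm]⟩

end Fermat.Agent.S41.PD
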