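import Fermat.Agent.S41.PD.PotX
import Fermat.Agent.S41.PD.LinAlg

/-! # S41 / PD-11 : `3 ∣ b3` and nondegeneracy of `b3 / 3` modulo every odd prime.

`three_dvd_b3`: `b3 = ∑ x, c x` with `c x = v (υ² x) w x - v x w (υ² x)` (`v = vX P`, `w = vX Q`; same computation as `b3_eq_sum`, or rewrite its right side by `Equiv.sum_comp`);
`c ∘ υ = c` by the relation `vX_ups`, `c x = 0` if `υ x = x`; `three_dvd_sum`.

`nondeg`: `w := vX Γ Q`; `hrad` of `uni` from `h`, `exists_pot_of_vX`, `b3_eq_sum`.  `uni` gives `v₀`; `exists_inv_of_T` gives `B₀` with `vX B₀ x = v₀ (σ x) - v₀ x`, so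
`p ∣ vX (Q + B₀) x` for all `x`, i.e. `p ∣ edge (Q + B₀) g` for all `g` (`toG_toX`, `edge_left_inv`); `const_of_farey` for `s ↦ ((Q + B₀) s : ZMod p)`: `Q + B₀ ≡ κ`.
`B := κ - B₀`, `Q' := (Q + B₀ - κ)/p`; `Q'` is a potential since `p * (Q' (γ∙s) - Q' s)` is independent of `s`. -/

set_option autoImplicit false

open Matrix Matrix.SpecialLinearGroup OnePoint ModularGroup
open scoped MatrixGroups

namespace Fermat.Agent.S41.PD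

variable (Γ : Subgroup SL(2, ℤ)) [Fintype (SL(2, ℤ) ⧸ Γ)]

theorem three_dvd_b3 (hneg : (-1 : SL(2, ℤ)) ∈ Γ) {P Q : Cusp → ℤ} (hP : IsPot Γ P)
    (hQ : IsPot Γ Q) : (3 : ℤ) ∣ b3 Γ P Q := by
  rw [b3_eq_sum Γ hneg hP hQ]
  have hυ := ups_ups_ups Γ hneg
  have hv := vX_ups hP
  have hw := vX_ups hQ
  have e : ∑ x, vX Γ P x * (vX Γ Q (ups Γ x) - vX Γ Q (ups Γ (ups Γ x)))
      = ∑ x, (vX Γ P (ups Γ (ups Γ x)) * vX Γ Q x - vX Γ P x * vX Γ Q (ups Γ (ups Γ x))) := by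
    simp only [mul_sub, Finset.sum_sub_distrib]
    congr 1
    rw [← Equiv.sum_comp ((ups Γ).trans (ups Γ)) (fun x => vX Γ P x * vX Γ Q (ups Γ x))]
    simp [hυ]
  rw [e]
  apply three_dvd_sum (ups Γ) hυ
  · intro x
    rw [hυ]
    linear_combination (vX Γ P x) * hw x - (vX Γ Q x) * hv x
  · intro x hx
    rw [hx, hx]
    ring

/-- **PD-nd** -/
theorem nondeg (hneg : (-1 : SL(2, ℤ)) ∈ Γ) {p : ℕ} (hp : p.Prime) (hp2 : p ≠ 2) {Q : Cusp → ℤ}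
    (hQ : IsPot Γ Q) (h : ∀ P : Cusp → ℤ, IsPot Γ P → (3 * p : ℤ) ∣ b3 Γ P Q) :
    ∃ B Q' : Cusp → ℤ, IsInv Γ B ∧ IsPot Γ Q' ∧ ∀ s, Q s = B s + p * Q' s := by
  classical
  have hp0 : (p : ℤ) ≠ 0 := by exact_mod_cast hp.ne_zero
  obtain ⟨v₀, hv₀, hdiv⟩ := uni (sig Γ) (ups Γ) (sig_sig Γ hneg) (ups_ups_ups Γ hneg)
    (conn Γ hneg) hp hp2 (vX Γ Q) (vX_sig hQ) (vX_ups hQ) (by
      intro v h1 h2
      obtain ⟨P, hP, rfl⟩ := exists_pot_of_vX Γ hneg v h1 h2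
      rw [← b3_eq_sum Γ hneg hP hQ]
      exact h P hP)
  obtain ⟨B₀, hB₀, hB₀v⟩ := exists_inv_of_T Γ hneg v₀ hv₀
  have hedge : ∀ g, (p : ℤ) ∣ edge Q g + edge B₀ g := by
    intro g
    have h1 := hdiv ((g⁻¹ : SL(2, ℤ)) : SL(2, ℤ) ⧸ Γ)
    have e1 : vX Γ Q ((g⁻¹ : SL(2, ℤ)) : SL(2, ℤ) ⧸ Γ) = edge Q g :=
      toG_toX Γ (edge_left_inv hQ) g
    have e2 : vX Γ B₀ ((g⁻¹ : SL(2, ℤ)) : SL(2, ℤ) ⧸ Γ) = edge B₀ g :=
      toG_toX Γ (edge_left_inv hB₀.isPot) g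
    rw [e1] at h1
    rw [← e2, hB₀v]
    have : edge Q g + (v₀ (sig Γ ((g⁻¹ : SL(2, ℤ)) : SL(2, ℤ) ⧸ Γ)) - v₀ ((g⁻¹ : SL(2, ℤ)) : SL(2, ℤ) ⧸ Γ))
        = edge Q g - (v₀ ((g⁻¹ : SL(2, ℤ)) : SL(2, ℤ) ⧸ Γ) - v₀ (sig Γ ((g⁻¹ : SL(2, ℤ)) : SL(2, ℤ) ⧸ Γ))) := by
      ring
    rw [this]
    exact h1
  have hconst := const_of_farey (fun s => ((Q s + B₀ s : ℤ) : ZMod p)) (by
    intro g
    have h1 := hedge g
    unfold edge at h1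
    rw [← sub_eq_zero, ← Int.cast_sub, ZMod.intCast_zmod_eq_zero_iff_dvd]
    have : Q (g ∙ c0) + B₀ (g ∙ c0) - (Q (g ∙ ∞) + B₀ (g ∙ ∞))
        = Q (g ∙ c0) - Q (g ∙ ∞) + (B₀ (g ∙ c0) - B₀ (g ∙ ∞)) := by ring
    rw [this]
    exact h1)
  have hdvd : ∀ s, (p : ℤ) ∣ Q s + B₀ s - (Q ∞ + B₀ ∞) := by
    intro s
    rw [← ZMod.intCast_zmod_eq_zero_iff_dvd, Int.cast_sub, sub_eq_zero]
    exact hconst s ∞
  choose Q' hQ' using hdvd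
  refine ⟨fun s => (Q ∞ + B₀ ∞) - B₀ s, Q', ?_, ?_, ?_⟩
  · intro γ hγ s
    simp only
    rw [hB₀ γ hγ]
  · intro γ hγ
    obtain ⟨c, hc⟩ := hQ γ hγ
    refine ⟨Q' (γ ∙ ∞) - Q' ∞, ?_⟩
    intro s
    have h1 := hQ' (γ ∙ s)
    have h2 := hQ' s
    have h3 := hQ' (γ ∙ ∞)
    have h4 := hQ' ∞
    rw [hc, hB₀ γ hγ] at h1 h3
    apply mul_left_cancel₀ hp0
    linear_combination h3 - h4 - h1 + h2
  · intro s
    have := hQ' s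
    simp only
    linear_combination this

end Fermat.Agent.S41.PD
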