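import Fermat.Agent.S41.PD.Defs
import Fermat.Agent.S41.Orient

/-! # S41 / PD-3 : the cyclic orientation cocycle on `P¹(ℚ)`.

`vec ∞ = (1,0)`, `vec x = (x,1)`, `dt a b = det (vec a, vec b)`, `orC a b c = sign (dt a b * dt b c * dt c a)`.
All statements are deduced from `Fermat/Agent/S41/Orient.lean` (integer valued version `Orient.orc`). -/

set_option autoImplicit false

open Matrix Matrix.SpecialLinearGroup OnePoint ModularGroup
open scoped MatrixGroups

namespace Fermat.Agent.S41.PD

/-- the orientation cocycle. -/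
noncomputable def orC (a b c : Cusp) : ℚ := ((Orient.orc a b c : ℤ) : ℚ)

theorem orC_alt : Alt2 orC := by
  constructor
  · intro a b c
    unfold orC
    rw [Orient.orc_swap]
    push_cast
    ring
  · intro a b c
    unfold orC
    rw [← Orient.orc_rot a c b, Orient.orc_swap, Orient.orc_rot]
    push_cast
    ring

theorem orC_coc : Coc2 orC := by
  intro a b c d
  unfold orC
  exact_mod_cast Orient.orc_cocycle a b c d

theorem orC_smul (W : GL (Fin 2) ℚ) (hW : 0 < (W : Matrix (Fin 2) (Fin 2) ℚ).det) (a b c : Cusp) :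
    orC (W • a) (W • b) (W • c) = orC a b c := by
  unfold orC
  rw [Orient.orc_smul W hW]

theorem orC_act (g : SL(2, ℤ)) (a b c : Cusp) : orC (g ∙ a) (g ∙ b) (g ∙ c) = orC a b c := by
  apply orC_smul
  have : ((mapGL ℚ g : GL (Fin 2) ℚ) : Matrix (Fin 2) (Fin 2) ℚ).det = 1 := by
    rw [mapGL_coe_matrix]
    exact (Matrix.SpecialLinearGroup.map (algebraMap ℤ ℚ) g).det_coe
  rw [this]
  exact one_pos

theorem orC_base : orC ∞ c0 cm1 = -1 := by
  unfold orC c0 cm1
  rw [Orient.orc_base]
  norm_num

end Fermat.Agent.S41.PD
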