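import Fermat.Agent.S41.PD.Transfer
import Fermat.Agent.S41.PD.CuspG
import Fermat.Agent.S41.FareySC

/-! # S41 / PD-10 : potentials ↔ Manin-type vectors on `X = G ⧸ Γ`.

`edge P g = P (g∙0) - P (g∙∞)`, `vX Γ P = toX Γ (edge P)`.
* `b3_eq_sum`: with `v = edge P`, `w = edge Q`, `U = S*T`: `P (g∙cm1) - P (g∙∞) = - v (g*U*U)`, so the summand of `b3` is `v (gUU) w g - v g w (gUU)`;
  reindex the first term by `sumQ_mul_right` (`U³ = -1`, `edge_neg`): `∑ v (gUU) w g = ∑ v g w (gU)`.  Then `toX_mul_right`.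
* `exists_pot_of_vX`: `e := toG Γ v` satisfies the hypotheses of `farey_simply_connected` (`toG_neg`, `toG_mul_S`, `toG_mul_U`); `F`, then `P` with `P (g∙∞) = F g`
  (`exists_cusp_fun`); `edge P = e`; `IsPot`: for `γ ∈ Γ`, `z s := P (γ∙s) - P s` satisfies `z (g∙c0) = z (g∙∞)` (`toG_left_inv`), so it is constant (`const_of_farey`).
* `exists_inv_of_T`: `V₀ := toG Γ v₀`, `V₀ (g*S) = V₀ (g*S*T)` for all `g`, so `V₀ (h*T) = V₀ h`; `B (g∙∞) = V₀ g`. -/

set_option autoImplicit false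

open Matrix Matrix.SpecialLinearGroup OnePoint ModularGroup
open scoped MatrixGroups

namespace Fermat.Agent.S41.PD

section

variable {A : Type*} [AddCommGroup A] (Γ : Subgroup SL(2, ℤ))

/-- the edge function of a potential. -/
noncomputable def edge (P : Cusp → A) (g : SL(2, ℤ)) : A := P (g ∙ c0) - P (g ∙ ∞)

variable {Γ} in
lemma edge_left_inv {P : Cusp → A} (hP : IsPot Γ P) : ∀ γ ∈ Γ, ∀ g, edge P (γ * g) = edge P g := by
  intro γ hγ g
  obtain ⟨c, hc⟩ := hP γ hγ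
  unfold edge
  rw [act_mul, act_mul, hc, hc]
  abel

lemma edge_neg (P : Cusp → A) (g : SL(2, ℤ)) : edge P (-g) = edge P g := by
  unfold edge; rw [act_neg, act_neg]

lemma edge_mul_S (P : Cusp → A) (g : SL(2, ℤ)) : edge P (g * S) = - edge P g := by
  unfold edge; rw [act_mul, act_mul, S_c0, S_infty]; abel

lemma edge_mul_U (P : Cusp → A) (g : SL(2, ℤ)) :
    edge P g + edge P (g * (S * T)) + edge P (g * (S * T) * (S * T)) = 0 := by
  unfold edge
  rw [act_mul g, act_mul g, act_mul (g * (S * T)), act_mul (g * (S * T)), act_mul g, act_mul g,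
    U_c0, U_infty, U_cm1, U_c0]
  abel

/-- the vector on `X` attached to a potential. -/
noncomputable def vX (P : Cusp → A) : SL(2, ℤ) ⧸ Γ → A := toX Γ (edge P)

variable {Γ} in
lemma vX_sig {P : Cusp → A} (hP : IsPot Γ P) (x : SL(2, ℤ) ⧸ Γ) :
    vX Γ P (sig Γ x) = - vX Γ P x := by
  have h := toX_mul_right Γ (edge_left_inv hP) S x
  rw [← sig_apply] at h
  unfold vX
  rw [← h]
  show edge P ((x.out)⁻¹ * S) = - edge P (x.out)⁻¹
  rw [edge_mul_S]

variable {Γ} in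
lemma vX_ups {P : Cusp → A} (hP : IsPot Γ P) (x : SL(2, ℤ) ⧸ Γ) :
    vX Γ P x + vX Γ P (ups Γ x) + vX Γ P (ups Γ (ups Γ x)) = 0 := by
  have h1 := toX_mul_right Γ (edge_left_inv hP) (S * T) x
  have h2 := toX_mul_right Γ (edge_left_inv hP) (S * T * (S * T)) x
  rw [← ups_apply] at h1
  rw [_root_.mul_inv_rev, mul_smul, ← ups_apply, ← ups_apply] at h2
  unfold vX
  rw [← h1, ← h2]
  show edge P (x.out)⁻¹ + edge P ((x.out)⁻¹ * (S * T)) + edge P ((x.out)⁻¹ * (S * T * (S * T))) = 0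
  rw [← mul_assoc (x.out)⁻¹ (S * T) (S * T)]
  exact edge_mul_U P _

theorem exists_pot_of_vX (hneg : (-1 : SL(2, ℤ)) ∈ Γ) (v : SL(2, ℤ) ⧸ Γ → A)
    (h1 : ∀ x, v (sig Γ x) = - v x) (h2 : ∀ x, v x + v (ups Γ x) + v (ups Γ (ups Γ x)) = 0) :
    ∃ P : Cusp → A, IsPot Γ P ∧ vX Γ P = v := by
  obtain ⟨F, hFT, hFneg, hFS⟩ := farey_simply_connected (toG Γ v) (toG_neg Γ hneg v)
    (fun g => by
      rw [toG_mul_S]
      show v (sig Γ _) = - v _
      rw [h1])
    (fun g => by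
      rw [toG_mul_U, toG_mul_U, toG_mul_U]
      exact h2 _)
  obtain ⟨P, hP⟩ := exists_cusp_fun F hFT hFneg
  have hedge : ∀ g, edge P g = toG Γ v g := by
    intro g
    unfold edge
    rw [← S_infty, ← act_mul, hP, hP, hFS]
    abel
  refine ⟨P, ?_, ?_⟩
  · intro γ hγ
    have hz := const_of_farey (fun s => P (γ ∙ s) - P s) (by
      intro g
      have e1 := hedge (γ * g)
      have e2 := hedge g
      rw [toG_left_inv Γ v γ hγ, ← e2] at e1
      unfold edge at e1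
      rw [act_mul, act_mul] at e1
      show P (γ ∙ g ∙ c0) - P (g ∙ c0) = P (γ ∙ g ∙ ∞) - P (g ∙ ∞)
      rw [sub_eq_sub_iff_add_eq_add] at e1 ⊢
      rw [e1, add_comm])
    refine ⟨P (γ ∙ ∞) - P ∞, fun s => ?_⟩
    have : P (γ ∙ s) - P s = P (γ ∙ ∞) - P ∞ := hz s ∞
    rw [← this]
    abel
  · ext x
    unfold vX
    have : edge P = toG Γ v := funext hedge
    rw [this, toX_toG]

theorem exists_inv_of_T (hneg : (-1 : SL(2, ℤ)) ∈ Γ) (v₀ : SL(2, ℤ) ⧸ Γ → A)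
    (h : ∀ x, v₀ (sig Γ x) = v₀ (ups Γ x)) :
    ∃ B : Cusp → A, IsInv Γ B ∧ ∀ x, vX Γ B x = v₀ (sig Γ x) - v₀ x := by
  have hT : ∀ g, toG Γ v₀ (g * T) = toG Γ v₀ g := by
    intro g
    have e1 : g * T = (g * S⁻¹) * (S * T) := by
      rw [mul_assoc, inv_mul_cancel_left]
    have e2 : g = (g * S⁻¹) * S := by rw [inv_mul_cancel_right]
    conv_rhs => rw [e2]
    rw [e1, toG_mul_U, toG_mul_S]
    show v₀ (ups Γ _) = v₀ (sig Γ _)
    rw [h]
  obtain ⟨B, hB⟩ := exists_cusp_fun (toG Γ v₀) hT (toG_neg Γ hneg v₀)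
  have hBinv : IsInv Γ B := by
    intro γ hγ s
    obtain ⟨g, rfl⟩ : ∃ g : SL(2, ℤ), g ∙ (∞ : Cusp) = s := exists_mem_SL2 ℤ s
    rw [← act_mul, hB, hB, toG_left_inv Γ v₀ γ hγ]
  refine ⟨B, hBinv, ?_⟩
  intro x
  have hedge : edge B = toG Γ (fun x => v₀ (sig Γ x) - v₀ x) := by
    funext g
    unfold edge
    rw [← S_infty, ← act_mul, hB, hB, toG_mul_S]
    rfl
  unfold vX
  rw [hedge, toX_toG]

end

theorem b3_eq_sum {R : Type*} [CommRing R] (Γ : Subgroup SL(2, ℤ)) [Fintype (SL(2, ℤ) ⧸ Γ)]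
    (hneg : (-1 : SL(2, ℤ)) ∈ Γ) {P Q : Cusp → R} (hP : IsPot Γ P) (hQ : IsPot Γ Q) :
    b3 Γ P Q = ∑ x, vX Γ P x * (vX Γ Q (ups Γ x) - vX Γ Q (ups Γ (ups Γ x))) := by
  have hvP := edge_left_inv hP
  have hvQ := edge_left_inv hQ
  -- pointwise formula
  have h1 : ∀ g : SL(2, ℤ), w2 P Q (g ∙ ∞) (g ∙ c0) (g ∙ cm1)
      = edge P (g * (S * T) * (S * T)) * edge Q g - edge P g * edge Q (g * (S * T) * (S * T)) := by
    intro g
    unfold w2 edge
    rw [act_mul (g * (S * T)), act_mul (g * (S * T)), act_mul g, act_mul g, U_c0, U_infty, U_cm1,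
      U_c0]
    ring
  have h2 : sumQ Γ (fun g => edge P (g * (S * T) * (S * T)) * edge Q g)
      = sumQ Γ (fun g => edge P g * edge Q (g * (S * T))) := by
    have hinv : ∀ γ ∈ Γ, ∀ g, (fun g => edge P (g * (S * T) * (S * T)) * edge Q g) (γ * g)
        = (fun g => edge P (g * (S * T) * (S * T)) * edge Q g) g := by
      intro γ hγ g
      show edge P (γ * g * (S * T) * (S * T)) * edge Q (γ * g) = _
      rw [mul_assoc γ, mul_assoc γ, hvP γ hγ, hvQ γ hγ]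
    rw [← sumQ_mul_right Γ hinv (S * T)]
    congr 1
    funext g
    show edge P (g * (S * T) * (S * T) * (S * T)) * edge Q (g * (S * T)) = _
    have : g * (S * T) * (S * T) * (S * T) = -g := by
      rw [mul_assoc, mul_assoc, ← mul_assoc (S * T), U_cube]
      simp
    rw [this, edge_neg]
  unfold b3 Int2
  simp only [h1]
  rw [sumQ_sub, h2, ← sumQ_sub, sumQ_eq_sum_toX]
  apply Finset.sum_congr rfl
  intro x _
  have e1 := toX_mul_right Γ hvQ (S * T) x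
  have e2 := toX_mul_right Γ hvQ (S * T * (S * T)) x
  rw [← ups_apply] at e1
  rw [_root_.mul_inv_rev, mul_smul, ← ups_apply, ← ups_apply] at e2
  unfold vX
  rw [← e1, ← e2]
  show edge P (x.out)⁻¹ * edge Q ((x.out)⁻¹ * (S * T))
      - edge P (x.out)⁻¹ * edge Q ((x.out)⁻¹ * (S * T) * (S * T))
    = edge P (x.out)⁻¹ * (edge Q ((x.out)⁻¹ * (S * T)) - edge Q ((x.out)⁻¹ * (S * T * (S * T))))
  rw [mul_assoc (x.out)⁻¹ (S * T) (S * T)]
  ring

end Fermat.Agent.S41.PD
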