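import Fermat.Agent.S41.PD.Defs

/-! # S41 / PD-1 : dictionary between left-`Γ`-invariant functions on `G = SL(2,ℤ)` and functions on `X = G ⧸ Γ`; reindexing of `sumQ`.

`Ψ : G → A` left-`Γ`-invariant  ↔  `ψ : X → A`, `ψ (gΓ) = Ψ g⁻¹`.  Right translation `Ψ (g * u)` ↔ `ψ (u⁻¹ • x)`.
`sig = S⁻¹ •`, `ups = (S*T)⁻¹ •` are the permutations of `X` corresponding to `g ↦ g*S`, `g ↦ g*(S*T)`.
All proofs are short (`Quotient.out`, `QuotientGroup.eq`, `Equiv.sum_comp`, `Subgroup.quotientEquivProdOfLE`, `SL2Z_generators`). -/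

set_option autoImplicit false

open Matrix Matrix.SpecialLinearGroup OnePoint ModularGroup
open scoped MatrixGroups

namespace Fermat.Agent.S41.PD

variable {A : Type*} [AddCommGroup A] (Γ : Subgroup SL(2, ℤ))

/-- descend a function on `G` to `X = G ⧸ Γ`. -/
noncomputable def toX (Ψ : SL(2, ℤ) → A) (x : SL(2, ℤ) ⧸ Γ) : A := Ψ (x.out)⁻¹

/-- pull back a function on `X` to `G`. -/
def toG (ψ : SL(2, ℤ) ⧸ Γ → A) (g : SL(2, ℤ)) : A := ψ ((g⁻¹ : SL(2, ℤ)) : SL(2, ℤ) ⧸ Γ)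

noncomputable def sig : Equiv.Perm (SL(2, ℤ) ⧸ Γ) := MulAction.toPerm (S⁻¹ : SL(2, ℤ))

noncomputable def ups : Equiv.Perm (SL(2, ℤ) ⧸ Γ) := MulAction.toPerm ((S * T)⁻¹ : SL(2, ℤ))

omit [AddCommGroup A] in
lemma toG_left_inv (ψ : SL(2, ℤ) ⧸ Γ → A) : ∀ γ ∈ Γ, ∀ g, toG Γ ψ (γ * g) = toG Γ ψ g := by
  intro γ hγ g
  unfold toG
  congr 1
  rw [QuotientGroup.eq]
  simpa using hγ

omit [AddCommGroup A] in
/-- value of a left invariant function at the inverse of any representative. -/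
lemma apply_out_inv {Ψ : SL(2, ℤ) → A} (hΨ : ∀ γ ∈ Γ, ∀ g, Ψ (γ * g) = Ψ g) (g : SL(2, ℤ)) :
    Ψ ((g : SL(2, ℤ) ⧸ Γ).out)⁻¹ = Ψ g⁻¹ := by
  have h1 : (((g : SL(2, ℤ) ⧸ Γ).out : SL(2, ℤ)) : SL(2, ℤ) ⧸ Γ) = (g : SL(2, ℤ) ⧸ Γ) :=
    Quotient.out_eq' _
  rw [QuotientGroup.eq] at h1
  have := hΨ _ h1 g⁻¹
  rw [mul_assoc, mul_inv_cancel, mul_one] at this
  exact this

omit [AddCommGroup A] in
lemma toG_toX {Ψ : SL(2, ℤ) → A} (hΨ : ∀ γ ∈ Γ, ∀ g, Ψ (γ * g) = Ψ g) (g : SL(2, ℤ)) :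
    toG Γ (toX Γ Ψ) g = Ψ g := by
  unfold toG toX
  rw [apply_out_inv Γ hΨ, inv_inv]

omit [AddCommGroup A] in
lemma toX_toG (ψ : SL(2, ℤ) ⧸ Γ → A) (x : SL(2, ℤ) ⧸ Γ) : toX Γ (toG Γ ψ) x = ψ x := by
  show ψ ((((x.out)⁻¹)⁻¹ : SL(2, ℤ)) : SL(2, ℤ) ⧸ Γ) = ψ x
  rw [inv_inv]
  congr 1
  exact Quotient.out_eq' _

omit [AddCommGroup A] in
lemma toX_mul_right {Ψ : SL(2, ℤ) → A} (hΨ : ∀ γ ∈ Γ, ∀ g, Ψ (γ * g) = Ψ g) (u : SL(2, ℤ))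
    (x : SL(2, ℤ) ⧸ Γ) : toX Γ (fun g => Ψ (g * u)) x = toX Γ Ψ (u⁻¹ • x) := by
  obtain ⟨g, rfl⟩ := QuotientGroup.mk_surjective x
  have h1 : u⁻¹ • (g : SL(2, ℤ) ⧸ Γ) = ((u⁻¹ * g : SL(2, ℤ)) : SL(2, ℤ) ⧸ Γ) := rfl
  have h2 : (fun g => Ψ (g * u)) ((g : SL(2, ℤ) ⧸ Γ).out)⁻¹ = (fun g => Ψ (g * u)) g⁻¹ :=
    apply_out_inv Γ (Ψ := fun g => Ψ (g * u)) (fun γ hγ g => by
      show Ψ (γ * g * u) = Ψ (g * u)
      rw [mul_assoc, hΨ γ hγ]) g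
  show (fun g => Ψ (g * u)) ((g : SL(2, ℤ) ⧸ Γ).out)⁻¹ = Ψ ((u⁻¹ • (g : SL(2, ℤ) ⧸ Γ)).out)⁻¹
  rw [h2, h1, apply_out_inv Γ hΨ, _root_.mul_inv_rev, inv_inv]

omit [AddCommGroup A] in
lemma toG_mul_right (ψ : SL(2, ℤ) ⧸ Γ → A) (g u : SL(2, ℤ)) :
    toG Γ ψ (g * u) = toG Γ (fun x => ψ (u⁻¹ • x)) g := by
  show ψ (((g * u)⁻¹ : SL(2, ℤ)) : SL(2, ℤ) ⧸ Γ) = ψ (u⁻¹ • ((g⁻¹ : SL(2, ℤ)) : SL(2, ℤ) ⧸ Γ))
  rw [_root_.mul_inv_rev]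
  rfl

lemma neg_one_smul_quot (hneg : (-1 : SL(2, ℤ)) ∈ Γ) (x : SL(2, ℤ) ⧸ Γ) :
    (-1 : SL(2, ℤ)) • x = x := by
  obtain ⟨g, rfl⟩ := QuotientGroup.mk_surjective x
  have h1 : (-1 : SL(2, ℤ)) • (g : SL(2, ℤ) ⧸ Γ) = (((-1) * g : SL(2, ℤ)) : SL(2, ℤ) ⧸ Γ) := rfl
  rw [h1, QuotientGroup.eq]
  simpa using hneg

lemma neg_one_inv : ((-1 : SL(2, ℤ)))⁻¹ = -1 := by
  rw [inv_eq_iff_mul_eq_one]; simp

omit [AddCommGroup A] in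
lemma toG_neg (hneg : (-1 : SL(2, ℤ)) ∈ Γ) (ψ : SL(2, ℤ) ⧸ Γ → A) (g : SL(2, ℤ)) :
    toG Γ ψ (-g) = toG Γ ψ g := by
  have : -g = g * (-1) := by simp
  rw [this, toG_mul_right]
  show ψ ((-1 : SL(2, ℤ))⁻¹ • ((g⁻¹ : SL(2, ℤ)) : SL(2, ℤ) ⧸ Γ)) = _
  rw [neg_one_inv, neg_one_smul_quot Γ hneg]
  rfl

omit [AddCommGroup A] in
lemma toG_mul_S (ψ : SL(2, ℤ) ⧸ Γ → A) (g : SL(2, ℤ)) :
    toG Γ ψ (g * S) = toG Γ (fun x => ψ (sig Γ x)) g := toG_mul_right Γ ψ g S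

omit [AddCommGroup A] in
lemma toG_mul_U (ψ : SL(2, ℤ) ⧸ Γ → A) (g : SL(2, ℤ)) :
    toG Γ ψ (g * (S * T)) = toG Γ (fun x => ψ (ups Γ x)) g := toG_mul_right Γ ψ g (S * T)

lemma S_mul_S : S * S = (-1 : SL(2, ℤ)) := by
  ext i j
  fin_cases i <;> fin_cases j <;> simp [coe_S, Matrix.mul_apply, Fin.sum_univ_two]

lemma U_cube : (S * T) * (S * T) * (S * T) = (-1 : SL(2, ℤ)) := by
  ext i j
  fin_cases i <;> fin_cases j <;> simp [coe_S, coe_T, Matrix.mul_apply, Fin.sum_univ_two]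

lemma sig_apply (x : SL(2, ℤ) ⧸ Γ) : sig Γ x = (S⁻¹ : SL(2, ℤ)) • x := rfl

lemma ups_apply (x : SL(2, ℤ) ⧸ Γ) : ups Γ x = ((S * T)⁻¹ : SL(2, ℤ)) • x := rfl

lemma sig_sig (hneg : (-1 : SL(2, ℤ)) ∈ Γ) (x : SL(2, ℤ) ⧸ Γ) : sig Γ (sig Γ x) = x := by
  rw [sig_apply, sig_apply, ← mul_smul, ← _root_.mul_inv_rev, S_mul_S, neg_one_inv,
    neg_one_smul_quot Γ hneg]

lemma ups_ups_ups (hneg : (-1 : SL(2, ℤ)) ∈ Γ) (x : SL(2, ℤ) ⧸ Γ) :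
    ups Γ (ups Γ (ups Γ x)) = x := by
  rw [ups_apply, ups_apply, ups_apply, ← mul_smul, ← mul_smul, ← _root_.mul_inv_rev,
    ← _root_.mul_inv_rev, ← mul_assoc, U_cube, neg_one_inv, neg_one_smul_quot Γ hneg]

/-- connectivity of `X` under `sig`, `ups` (from `SL2Z_generators`; `X` finite is NOT needed if one uses `sig_sig`,
`ups_ups_ups` to get closure under inverses). -/
lemma conn (hneg : (-1 : SL(2, ℤ)) ∈ Γ) (s : Set (SL(2, ℤ) ⧸ Γ)) (hs : s.Nonempty)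
    (h1 : ∀ x ∈ s, sig Γ x ∈ s) (h2 : ∀ x ∈ s, ups Γ x ∈ s) : s = Set.univ := by
  have hSi : ∀ x ∈ s, (S⁻¹ : SL(2, ℤ)) • x ∈ s := h1
  have hUi : ∀ x ∈ s, ((S * T)⁻¹ : SL(2, ℤ)) • x ∈ s := h2
  have hS : ∀ x ∈ s, (S : SL(2, ℤ)) • x ∈ s := by
    intro x hx
    have e : (S : SL(2, ℤ)) • x = sig Γ x := by
      conv_lhs => rw [← sig_sig Γ hneg x]
      rw [sig_apply, sig_apply, smul_inv_smul]
    rw [e]
    exact h1 x hx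
  have hU : ∀ x ∈ s, ((S * T : SL(2, ℤ))) • x ∈ s := by
    intro x hx
    have e : ((S * T : SL(2, ℤ))) • x = ups Γ (ups Γ x) := by
      conv_lhs => rw [← ups_ups_ups Γ hneg x]
      rw [ups_apply, ups_apply, ups_apply, smul_inv_smul]
    rw [e]
    exact h2 _ (h2 x hx)
  have hT : ∀ x ∈ s, (T : SL(2, ℤ)) • x ∈ s := by
    intro x hx
    have e : (T : SL(2, ℤ)) • x = (S⁻¹ : SL(2, ℤ)) • ((S * T : SL(2, ℤ)) • x) := by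
      rw [← mul_smul, inv_mul_cancel_left]
    rw [e]
    exact hSi _ (hU x hx)
  have hTi : ∀ x ∈ s, (T⁻¹ : SL(2, ℤ)) • x ∈ s := by
    intro x hx
    have e : (T⁻¹ : SL(2, ℤ)) • x = ((S * T)⁻¹ : SL(2, ℤ)) • ((S : SL(2, ℤ)) • x) := by
      rw [← mul_smul, _root_.mul_inv_rev, inv_mul_cancel_right]
    rw [e]
    exact hUi _ (hS x hx)
  have hall : ∀ g : SL(2, ℤ), ∀ x ∈ s, g • x ∈ s := by
    intro g
    have hg : g ∈ Subgroup.closure ({S, T} : Set SL(2, ℤ)) := by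
      rw [SpecialLinearGroup.SL2Z_generators]; trivial
    induction hg using Subgroup.closure_induction_left with
    | one => intro x hx; rwa [one_smul]
    | mul_left a ha b _ ih =>
      intro x hx
      rw [mul_smul]
      rcases ha with rfl | rfl
      · exact hS _ (ih x hx)
      · exact hT _ (ih x hx)
    | inv_mul_cancel a ha b _ ih =>
      intro x hx
      rw [mul_smul]
      rcases ha with rfl | rfl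
      · exact hSi _ (ih x hx)
      · exact hTi _ (ih x hx)
  obtain ⟨x₀, hx₀⟩ := hs
  ext x
  simp only [Set.mem_univ, iff_true]
  obtain ⟨g, rfl⟩ := MulAction.exists_smul_eq SL(2, ℤ) x₀ x
  exact hall g x₀ hx₀

variable [Fintype (SL(2, ℤ) ⧸ Γ)]

lemma sumQ_eq_sum_toX (Ψ : SL(2, ℤ) → A) : sumQ Γ Ψ = ∑ x, toX Γ Ψ x := rfl

theorem sumQ_mul_right {Ψ : SL(2, ℤ) → A} (hΨ : ∀ γ ∈ Γ, ∀ g, Ψ (γ * g) = Ψ g) (u : SL(2, ℤ)) :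
    sumQ Γ (fun g => Ψ (g * u)) = sumQ Γ Ψ := by
  rw [sumQ_eq_sum_toX, sumQ_eq_sum_toX]
  simp only [toX_mul_right Γ hΨ]
  exact Equiv.sum_comp (MulAction.toPerm (u⁻¹ : SL(2, ℤ))) (toX Γ Ψ)

lemma sumQ_add (Ψ Ψ' : SL(2, ℤ) → A) : sumQ Γ (fun g => Ψ g + Ψ' g) = sumQ Γ Ψ + sumQ Γ Ψ' :=
  Finset.sum_add_distrib

lemma sumQ_sub (Ψ Ψ' : SL(2, ℤ) → A) : sumQ Γ (fun g => Ψ g - Ψ' g) = sumQ Γ Ψ - sumQ Γ Ψ' :=
  Finset.sum_sub_distrib _ _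

lemma sumQ_neg (Ψ : SL(2, ℤ) → A) : sumQ Γ (fun g => - Ψ g) = - sumQ Γ Ψ :=
  Finset.sum_neg_distrib _

lemma sumQ_const (a : A) : sumQ Γ (fun _ => a) = Fintype.card (SL(2, ℤ) ⧸ Γ) • a := by
  simp [sumQ]

/-- tower formula. -/
theorem sumQ_tower {Γ' : Subgroup SL(2, ℤ)} (hle : Γ' ≤ Γ) [Fintype (SL(2, ℤ) ⧸ Γ')]
    [Fintype (Γ ⧸ Γ'.subgroupOf Γ)] {Ψ : SL(2, ℤ) → A} (hΨ : ∀ γ ∈ Γ', ∀ g, Ψ (γ * g) = Ψ g) :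
    sumQ Γ' Ψ = sumQ Γ (fun g => ∑ y : Γ ⧸ Γ'.subgroupOf Γ, Ψ (((y.out : Γ) : SL(2, ℤ))⁻¹ * g)) := by
  unfold sumQ
  rw [← Equiv.sum_comp (Subgroup.quotientEquivProdOfLE hle).symm, Fintype.sum_prod_type]
  apply Finset.sum_congr rfl
  intro x _
  apply Finset.sum_congr rfl
  intro y _
  have e : (Subgroup.quotientEquivProdOfLE hle).symm (x, y)
      = ((x.out * ((y.out : Γ) : SL(2, ℤ)) : SL(2, ℤ)) : SL(2, ℤ) ⧸ Γ') := by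
    conv_lhs => rw [← Quotient.out_eq' y]
    rfl
  rw [e, apply_out_inv Γ' hΨ, _root_.mul_inv_rev]

end Fermat.Agent.S41.PD
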