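import Mathlib

/-! # S41 / PD-4, PD-5a, PD-5b, PD-6 : finite combinatorics on `X = Γ\SL(2,ℤ)` (Mathlib only).

`X` finite, `σ υ : Equiv.Perm X`, `σ² = 1`, `υ³ = 1`, `X` connected under `σ, υ`.  `V = (X → ℤ)` (or `ℚ`), `(S f) x = f (σ x)`, `(U f) x = f (υ x)`,
`⟨f,g⟩ = ∑ x, f x * g x` (`S`, `U` are orthogonal: `Equiv.sum_comp`).

**PD-5a** `mem_add_of_dvd`.  `A = V^σ + V^υ`.  (i) `V/A` is torsion free: `n y = a + c` ⟹ `a mod n` is `σ`- and `υ`-invariant ⟹ `a = a₀ + n a'`, `a'∘σ = a'`,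
and `y - a'` is `υ`-invariant.  (ii) `V/A` is finite free (`Module.free_of_finite_type_torsion_free'`); with a basis `m_i` and the coordinate functionals `f_i`,
`f_i ∘ mk = ⟨v_i, ·⟩`, `v_i x = f_i (mk (Pi.single x 1))`; `v_i` kills `δ_x + δ_{σx} ∈ V^σ` and `δ_x + δ_{υx} + δ_{υ²x} ∈ V^υ`, so it satisfies the two relations;
hence `n ∣ f_i (mk y)` for all `i`, `mk y ∈ n (V/A)`. -/

set_option autoImplicit false

namespace Fermat.Agent.S41.PD

variable {X : Type*} [Fintype X] (σ υ : Equiv.Perm X)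

/-- functions invariant under a permutation. -/
def invSub (τ : Equiv.Perm X) : Submodule ℤ (X → ℤ) where
  carrier := {a | ∀ x, a (τ x) = a x}
  zero_mem' := fun _ => rfl
  add_mem' := fun {a b} ha hb x => by simp only [Pi.add_apply, ha x, hb x]
  smul_mem' := fun m a ha x => by simp only [Pi.smul_apply, ha x]

omit [Fintype X] in
theorem mem_invSub {τ : Equiv.Perm X} {a : X → ℤ} : a ∈ invSub τ ↔ ∀ x, a (τ x) = a x := Iff.rfl

/-- `V / (V^σ + V^υ)` is torsion free. -/
theorem mem_sup_of_smul_mem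
    (hconn : ∀ s : Set X, s.Nonempty → (∀ x ∈ s, σ x ∈ s) → (∀ x ∈ s, υ x ∈ s) → s = Set.univ)
    (m : ℤ) (hm : m ≠ 0) (y : X → ℤ) (hy : m • y ∈ invSub σ ⊔ invSub υ) :
    y ∈ invSub σ ⊔ invSub υ := by
  obtain ⟨a, ha, c, hc, hac⟩ := Submodule.mem_sup.1 hy
  rw [mem_invSub] at ha hc
  have hac' : ∀ x, a x + c x = m * y x := fun x => by
    have := congrFun hac x
    simpa using this
  rcases isEmpty_or_nonempty X with hX | ⟨⟨x₀⟩⟩
  · have : y = 0 := Subsingleton.elim _ _
    rw [this]; exact Submodule.zero_mem _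
  have hs := hconn {x | m ∣ a x - a x₀} ⟨x₀, by simp⟩
    (fun x hx => by
      simp only [Set.mem_ofPred_eq] at hx ⊢
      rwa [ha x])
    (fun x hx => by
      simp only [Set.mem_ofPred_eq] at hx ⊢
      have h1 : a (υ x) - a x₀ = (a x - a x₀) + m * (y (υ x) - y x) := by
        have e1 := hac' (υ x)
        have e2 := hac' x
        rw [hc x] at e1
        linarith
      rw [h1]
      exact dvd_add hx (dvd_mul_right _ _))
  have hdvd : ∀ x, m ∣ a x - a x₀ := fun x => by
    have : x ∈ {x | m ∣ a x - a x₀} := by rw [hs]; trivial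
    exact this
  choose a' ha' using hdvd
  refine Submodule.mem_sup.2 ⟨a', ?_, y - a', ?_, by abel⟩
  · rw [mem_invSub]
    intro x
    apply mul_left_cancel₀ hm
    rw [← ha', ← ha', ha x]
  · rw [mem_invSub]
    intro x
    apply mul_left_cancel₀ hm
    simp only [Pi.sub_apply, mul_sub]
    rw [← ha', ← ha', ← hac', ← hac', hc x]
    ring

/-- **PD-5a** -/
theorem mem_add_of_dvd (hσ : ∀ x, σ (σ x) = x) (hυ : ∀ x, υ (υ (υ x)) = x)
    (hconn : ∀ s : Set X, s.Nonempty → (∀ x ∈ s, σ x ∈ s) → (∀ x ∈ s, υ x ∈ s) → s = Set.univ)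
    (n : ℤ) (hn : n ≠ 0) (y : X → ℤ)
    (hy : ∀ v : X → ℤ, (∀ x, v (σ x) = - v x) → (∀ x, v x + v (υ x) + v (υ (υ x)) = 0) →
      n ∣ ∑ x, v x * y x) :
    ∃ a c e : X → ℤ, (∀ x, a (σ x) = a x) ∧ (∀ x, c (υ x) = c x) ∧ ∀ x, y x = a x + c x + n * e x := by
  classical
  set A : Submodule ℤ (X → ℤ) := invSub σ ⊔ invSub υ with hA
  have htf : Module.IsTorsionFree ℤ ((X → ℤ) ⧸ A) := by
    refine Module.IsTorsionFree.of_smul_eq_zero fun m q hq => ?_
    by_cases hm : m = 0
    · exact Or.inl hm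
    right
    obtain ⟨z, rfl⟩ := Submodule.Quotient.mk_surjective A q
    rw [← Submodule.Quotient.mk_smul, Submodule.Quotient.mk_eq_zero] at hq
    rw [Submodule.Quotient.mk_eq_zero]
    exact mem_sup_of_smul_mem σ υ hconn m hm z hq
  obtain ⟨k, b⟩ : Σ k, Module.Basis (Fin k) ℤ ((X → ℤ) ⧸ A) := Module.basisOfFiniteTypeTorsionFree'
  have hdvd : ∀ i, n ∣ b.repr (A.mkQ y) i := by
    intro i
    let φ : (X → ℤ) →ₗ[ℤ] ℤ := (b.coord i).comp A.mkQ
    have hφA : ∀ z ∈ A, φ z = 0 := by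
      intro z hz
      have : A.mkQ z = 0 := (Submodule.Quotient.mk_eq_zero A).2 hz
      simp only [φ, LinearMap.comp_apply, this, map_zero]
    have hφ : φ y = ∑ x, φ (Pi.single x 1) * y x := by
      rw [LinearMap.pi_apply_eq_sum_univ φ y]
      refine Finset.sum_congr rfl fun x _ => ?_
      rw [smul_eq_mul, mul_comm]
      congr 2
      funext j
      simp [Pi.single_apply, eq_comm]
    have h1 : φ y = b.repr (A.mkQ y) i := rfl
    rw [← h1, hφ]
    refine hy (fun x => φ (Pi.single x 1)) ?_ ?_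
    · intro x
      have hmem : (Pi.single x 1 + Pi.single (σ x) 1 : X → ℤ) ∈ A := by
        refine Submodule.mem_sup_left ?_
        rw [mem_invSub]
        intro z
        simp only [Pi.add_apply, Pi.single_apply]
        have e1 : σ z = x ↔ z = σ x := ⟨fun h => by rw [← h, hσ], fun h => by rw [h, hσ]⟩
        have e2 : σ z = σ x ↔ z = x := σ.injective.eq_iff
        simp only [e1, e2]
        ring
      have := hφA _ hmem
      rw [map_add] at this
      linarith
    · intro x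
      have hmem : (Pi.single x 1 + Pi.single (υ x) 1 + Pi.single (υ (υ x)) 1 : X → ℤ) ∈ A := by
        refine Submodule.mem_sup_right ?_
        rw [mem_invSub]
        intro z
        simp only [Pi.add_apply, Pi.single_apply]
        have e1 : υ z = x ↔ z = υ (υ x) :=
          ⟨fun h => by rw [← h, hυ], fun h => by rw [h, hυ]⟩
        have e2 : υ z = υ x ↔ z = x := υ.injective.eq_iff
        have e3 : υ z = υ (υ x) ↔ z = υ x := υ.injective.eq_iff
        simp only [e1, e2, e3]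
        ring
      have := hφA _ hmem
      rw [map_add, map_add] at this
      exact this
  choose κ hκ using hdvd
  obtain ⟨e, he⟩ := Submodule.Quotient.mk_surjective A (∑ i, κ i • b i)
  have h2 : A.mkQ y = n • A.mkQ e := by
    rw [← b.sum_repr (A.mkQ y)]
    change _ = n • Submodule.Quotient.mk e
    rw [he, Finset.smul_sum]
    refine Finset.sum_congr rfl fun i _ => ?_
    rw [hκ i, mul_smul]
  have h3 : y - n • e ∈ A := by
    rw [← Submodule.Quotient.mk_eq_zero A, Submodule.Quotient.mk_sub, Submodule.Quotient.mk_smul]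
    exact sub_eq_zero.2 h2
  obtain ⟨a, ha, c, hc, hac⟩ := Submodule.mem_sup.1 h3
  refine ⟨a, c, e, ha, hc, fun x => ?_⟩
  have := congrFun hac x
  simp only [Pi.add_apply, Pi.sub_apply, Pi.smul_apply, smul_eq_mul] at this
  linarith

end Fermat.Agent.S41.PD
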