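import Fermat.Agent.S41.PD.Exact
import Fermat.Agent.S41.PD.Or
import Fermat.Agent.S41.PD.LinAlg

/-! # S41 / PD-9 : invariance of the Farey pairing under `W ∈ GL₂⁺(ℚ)` normalising `Γ`.

`exists_primitive_of_Int2_zero`: `d := toX Γ (g ↦ D (g∙∞) (g∙c0) (g∙cm1))` is `ups`-invariant (`toX_mul_right`, `U_*`, cyclic invariance from `Alt2`), `∑ d = Int2 Γ D = 0`;
`exists_antiinv_norm (sig Γ) (ups Γ)` gives `e_X`; `e := toG Γ e_X` satisfies the hypotheses of `exists_inv_primitive`.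

`Int2_comp_W`: `n := card X`, `D' := n • D + Int2 Γ D • orC` (`Int2 Γ orC = -n` by `orC_act`, `orC_base`, `sumQ_const`), `Int2 Γ D' = 0`, `D' = d1 η`;
`W^*D' = d1 (W^*η)`, `W^*η` is `Γ`-invariant by `hnorm`, alternating, so `Int2 Γ (W^*D') = 0` (`Int2_d1`); `W^* orC = orC`.  Hence `n Int2 (W^*D) = n Int2 D`.

`b3_comp_W`: cast to `ℚ` (`Int.cast_injective`, `Int.cast_sum`). -/

set_option autoImplicit false

open Matrix Matrix.SpecialLinearGroup OnePoint ModularGroup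
open scoped MatrixGroups

namespace Fermat.Agent.S41.PD

variable (Γ : Subgroup SL(2, ℤ)) [Fintype (SL(2, ℤ) ⧸ Γ)]

theorem exists_primitive_of_Int2_zero (hneg : (-1 : SL(2, ℤ)) ∈ Γ) (D : Cusp → Cusp → Cusp → ℚ)
    (hinv : Inv2 Γ D) (halt : Alt2 D) (hcoc : Coc2 D) (h0 : Int2 Γ D = 0) :
    ∃ η : Cusp → Cusp → ℚ, Inv1 Γ η ∧ Alt1 η ∧ ∀ a b c, d1 η a b c = D a b c := by
  set Ψ : SL(2, ℤ) → ℚ := fun g => D (g ∙ ∞) (g ∙ c0) (g ∙ cm1) with hΨdef
  have hΨ : ∀ γ ∈ Γ, ∀ g, Ψ (γ * g) = Ψ g := by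
    intro γ hγ g
    simp only [hΨdef, act_mul]
    exact hinv γ hγ _ _ _
  have hcyc : ∀ a b c, D b c a = D a b c := by
    intro a b c
    rw [halt.2 b a c, halt.1 a b c, neg_neg]
  have hΨU : ∀ g, Ψ (g * (S * T)) = Ψ g := by
    intro g
    simp only [hΨdef]
    rw [act_mul g (S * T) ∞, act_mul g (S * T) c0, act_mul g (S * T) cm1, U_infty, U_c0, U_cm1]
    exact hcyc _ _ _
  have hd : ∀ x, toX Γ Ψ (ups Γ x) = toX Γ Ψ x := by
    intro x
    have h1 := toX_mul_right Γ hΨ (S * T) x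
    have h2 : (fun g => Ψ (g * (S * T))) = Ψ := funext hΨU
    rw [h2] at h1
    exact h1.symm
  have hsum : ∑ x, toX Γ Ψ x = 0 := by
    rw [← sumQ_eq_sum_toX]
    exact h0
  obtain ⟨eX, heσ, heυ⟩ := exists_antiinv_norm (sig Γ) (ups Γ) (sig_sig Γ hneg)
    (ups_ups_ups Γ hneg) (conn Γ hneg) (toX Γ Ψ) hd hsum
  refine exists_inv_primitive Γ (fun a h => by linarith) D hinv halt hcoc (toG Γ eX)
    (toG_left_inv Γ eX) (toG_neg Γ hneg eX) ?_ ?_
  · intro g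
    rw [toG_mul_S]
    simp only [toG, heσ]
  · intro g
    rw [toG_mul_U Γ eX (g * (S * T)), toG_mul_U Γ eX g, toG_mul_U Γ (fun x => eX (ups Γ x)) g]
    have h1 := toG_toX Γ hΨ g
    simp only [toG] at h1 ⊢
    rw [heυ, h1]

omit [Fintype (SL(2, ℤ) ⧸ Γ)] in
private lemma Int2_lin [Fintype (SL(2, ℤ) ⧸ Γ)] (r s : ℚ) (D E : Cusp → Cusp → Cusp → ℚ) :
    Int2 Γ (fun a b c => r * D a b c + s * E a b c) = r * Int2 Γ D + s * Int2 Γ E := by
  simp only [Int2, sumQ, Finset.sum_add_distrib, Finset.mul_sum]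

private lemma Int2_orC : Int2 Γ orC = -(Fintype.card (SL(2, ℤ) ⧸ Γ) : ℚ) := by
  have h : (fun g : SL(2, ℤ) => orC (g ∙ ∞) (g ∙ c0) (g ∙ cm1)) = fun _ => (-1 : ℚ) := by
    funext g
    rw [orC_act, orC_base]
  rw [Int2, h, sumQ_const]
  simp

theorem Int2_comp_W (hneg : (-1 : SL(2, ℤ)) ∈ Γ) (W : GL (Fin 2) ℚ)
    (hW : 0 < (W : Matrix (Fin 2) (Fin 2) ℚ).det)
    (hnorm : ∀ γ ∈ Γ, ∃ γ' ∈ Γ, ∀ s : Cusp, W • (γ ∙ s) = γ' ∙ (W • s))
    (D : Cusp → Cusp → Cusp → ℚ) (hinv : Inv2 Γ D) (halt : Alt2 D) (hcoc : Coc2 D) :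
    Int2 Γ (fun a b c => D (W • a) (W • b) (W • c)) = Int2 Γ D := by
  set n : ℚ := (Fintype.card (SL(2, ℤ) ⧸ Γ) : ℚ) with hn
  have hn0 : n ≠ 0 := by
    rw [hn]
    exact_mod_cast Fintype.card_ne_zero
  set I : ℚ := Int2 Γ D with hI
  set D' : Cusp → Cusp → Cusp → ℚ := fun a b c => n * D a b c + I * orC a b c with hD'
  have hD'inv : Inv2 Γ D' := by
    intro γ hγ a b c
    simp only [hD']
    rw [hinv γ hγ, orC_act]
  have hD'alt : Alt2 D' := by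
    refine ⟨fun a b c => ?_, fun a b c => ?_⟩
    · simp only [hD']
      rw [halt.1 a b c, orC_alt.1 a b c]; ring
    · simp only [hD']
      rw [halt.2 a b c, orC_alt.2 a b c]; ring
  have hD'coc : Coc2 D' := by
    intro a b c d
    simp only [hD']
    have h1 := hcoc a b c d
    have h2 := orC_coc a b c d
    linear_combination n * h1 + I * h2
  have hD'0 : Int2 Γ D' = 0 := by
    rw [hD', Int2_lin, Int2_orC, ← hn, ← hI]
    ring
  obtain ⟨η, hηinv, hηalt, hηd⟩ := exists_primitive_of_Int2_zero Γ hneg D' hD'inv hD'alt hD'coc hD'0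
  set η' : Cusp → Cusp → ℚ := fun a b => η (W • a) (W • b) with hη'
  have hη'inv : Inv1 Γ η' := by
    intro γ hγ a b
    obtain ⟨γ', hγ', h⟩ := hnorm γ hγ
    simp only [hη']
    rw [h, h, hηinv γ' hγ']
  have hη'alt : Alt1 η' := fun a b => hηalt _ _
  have h0 := Int2_d1 Γ (fun (a : ℚ) h => by linarith) η' hη'inv hη'alt
  have h1 : d1 η' = fun a b c => n * (fun a b c => D (W • a) (W • b) (W • c)) a b c
      + I * orC a b c := by
    funext a b c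
    have := hηd (W • a) (W • b) (W • c)
    simp only [hD', orC_smul W hW] at this
    rw [← this]
    rfl
  rw [h1, Int2_lin, Int2_orC, ← hn] at h0
  have h2 : n * (Int2 Γ (fun a b c => D (W • a) (W • b) (W • c)) - I) = 0 := by
    linear_combination h0
  rcases mul_eq_zero.mp h2 with h | h
  · exact absurd h hn0
  · exact sub_eq_zero.mp h

private lemma b3_cast (P Q : Cusp → ℤ) :
    ((b3 Γ P Q : ℤ) : ℚ) = Int2 Γ (w2 (fun s => (P s : ℚ)) (fun s => (Q s : ℚ))) := by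
  simp only [b3, Int2, sumQ, w2]
  push_cast
  rfl

private lemma isPot_cast {Γ : Subgroup SL(2, ℤ)} {P : Cusp → ℤ} (hP : IsPot Γ P) :
    IsPot Γ (fun s => (P s : ℚ)) := by
  intro γ hγ
  obtain ⟨c, hc⟩ := hP γ hγ
  exact ⟨(c : ℚ), fun s => by simp only [hc]; push_cast; rfl⟩

/-- **PD-W** -/
theorem b3_comp_W (hneg : (-1 : SL(2, ℤ)) ∈ Γ) (W : GL (Fin 2) ℚ)
    (hW : 0 < (W : Matrix (Fin 2) (Fin 2) ℚ).det)
    (hnorm : ∀ γ ∈ Γ, ∃ γ' ∈ Γ, ∀ s : Cusp, W • (γ ∙ s) = γ' ∙ (W • s))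
    {P Q : Cusp → ℤ} (hP : IsPot Γ P) (hQ : IsPot Γ Q) :
    b3 Γ (fun s => P (W • s)) (fun s => Q (W • s)) = b3 Γ P Q := by
  apply Int.cast_injective (α := ℚ)
  rw [b3_cast, b3_cast]
  exact Int2_comp_W Γ hneg W hW hnorm _ (w2_inv (isPot_cast hP) (isPot_cast hQ)) (w2_alt _ _)
    (w2_coc _ _)

end Fermat.Agent.S41.PD
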