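import Fermat.Agent.S41.Defs
import Fermat.Agent.S41.PD.WInv
import Fermat.Agent.S41.PD.Nondeg
import Fermat.Agent.S41.PD.Adj

/-! # S41 / PD wiring : the Poincaré pairing on `H Γ ℤ` (language of `S41/Defs.lean`). -/

set_option autoImplicit false

open Matrix Matrix.SpecialLinearGroup CongruenceSubgroup OnePoint
open scoped MatrixGroups

namespace Fermat.Agent.S41

section W0

variable {Γ : Subgroup SL(2, ℤ)} {A : Type*} [AddCommGroup A]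

theorem mem_Symb_iff_isPot {u : OnePoint ℚ → A} : u ∈ Symb Γ A ↔ PD.IsPot Γ u := by
  constructor
  · intro h γ hγ
    refine ⟨u (mapGL ℚ γ • ∞) - u ∞, fun s => ?_⟩
    have := h γ hγ s ∞
    rw [← this]
    show u (mapGL ℚ γ • s) = _
    abel
  · intro h γ hγ s t
    obtain ⟨c, hc⟩ := h γ hγ
    have h1 : u (mapGL ℚ γ • s) = u s + c := hc s
    have h2 : u (mapGL ℚ γ • t) = u t + c := hc t
    rw [h1, h2]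
    abel

theorem mem_Inv_iff_isInv {u : OnePoint ℚ → A} : u ∈ Inv Γ A ↔ PD.IsInv Γ u := Iff.rfl

end W0

/-- descent of a bilinear form along a surjection. -/
theorem exists_bilin_descend {U Hh : Type*} [AddCommGroup U] [AddCommGroup Hh] (f : U →ₗ[ℤ] Hh)
    (hf : Function.Surjective f) (B : U → U → ℤ)
    (hadd1 : ∀ u u' v, B (u + u') v = B u v + B u' v)
    (hadd2 : ∀ u v v', B u (v + v') = B u v + B u v')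
    (h1 : ∀ u v, f u = 0 → B u v = 0) (h2 : ∀ u v, f v = 0 → B u v = 0) :
    ∃ B' : Hh →ₗ[ℤ] Hh →ₗ[ℤ] ℤ, ∀ u v, B' (f u) (f v) = B u v := by
  classical
  have hsub1 : ∀ u u' v, f u = f u' → B u v = B u' v := by
    intro u u' v h
    have e : B ((u - u') + u') v = B (u - u') v + B u' v := hadd1 _ _ _
    rw [sub_add_cancel, h1 (u - u') v (by rw [map_sub, h, sub_self]), zero_add] at e
    exact e
  have hsub2 : ∀ u v v', f v = f v' → B u v = B u v' := by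
    intro u v v' h
    have e : B u ((v - v') + v') = B u (v - v') + B u v' := hadd2 _ _ _
    rw [sub_add_cancel, h2 u (v - v') (by rw [map_sub, h, sub_self]), zero_add] at e
    exact e
  let g := Function.surjInv hf
  have hg : ∀ x, f (g x) = x := Function.surjInv_eq hf
  let B1 : Hh → (Hh →+ ℤ) := fun x =>
    AddMonoidHom.mk' (fun y => B (g x) (g y)) (by
      intro y y'
      rw [← hadd2]
      apply hsub2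
      rw [map_add, hg, hg, hg])
  let B2 : Hh →+ (Hh →ₗ[ℤ] ℤ) :=
    AddMonoidHom.mk' (fun x => (B1 x).toIntLinearMap) (by
      intro x x'
      ext y
      show B (g (x + x')) (g y) = B (g x) (g y) + B (g x') (g y)
      rw [← hadd1]
      apply hsub1
      rw [map_add, hg, hg, hg])
  refine ⟨B2.toIntLinearMap, ?_⟩
  intro u v
  show B (g (f u)) (g (f v)) = B u v
  rw [hsub1 _ u _ (hg _), hsub2 _ _ v (hg _)]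

section pd

variable (Γ : Subgroup SL(2, ℤ)) [Fintype (SL(2, ℤ) ⧸ Γ)]

/-- `pd` is the Poincaré pairing `b3 / 3` on `H Γ ℤ`. -/
def IsPd (pd : H Γ ℤ →ₗ[ℤ] H Γ ℤ →ₗ[ℤ] ℤ) : Prop :=
  ∀ u v : Symb Γ ℤ, 3 * pd (bd Γ ℤ u) (bd Γ ℤ v) = PD.b3 Γ u.1 v.1

theorem b3_add_left (P P' Q : OnePoint ℚ → ℤ) :
    PD.b3 Γ (P + P') Q = PD.b3 Γ P Q + PD.b3 Γ P' Q := by
  rw [PD.b3_swap Γ Q (P + P'), PD.b3_add_right, PD.b3_swap Γ P Q, PD.b3_swap Γ P' Q]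
  ring

theorem b3_inv_right {P B : OnePoint ℚ → ℤ} (hP : P ∈ Symb Γ ℤ) (hB : B ∈ Inv Γ ℤ) :
    PD.b3 Γ P B = 0 := by
  rw [PD.b3_swap Γ B P, PD.b3_of_isInv Γ hB (mem_Symb_iff_isPot.1 hP), neg_zero]

theorem exists_isPd (hneg : (-1 : SL(2, ℤ)) ∈ Γ) : ∃ pd, IsPd Γ pd := by
  have h3 : ∀ u v : Symb Γ ℤ, (3 : ℤ) ∣ PD.b3 Γ u.1 v.1 := fun u v =>
    PD.three_dvd_b3 Γ hneg (mem_Symb_iff_isPot.1 u.2) (mem_Symb_iff_isPot.1 v.2)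
  obtain ⟨B', hB'⟩ := exists_bilin_descend (bd Γ ℤ) bd_surjective
    (fun u v => PD.b3 Γ u.1 v.1 / 3)
    (fun u u' v => by
      show PD.b3 Γ (u.1 + u'.1) v.1 / 3 = _
      rw [b3_add_left, Int.add_ediv_of_dvd_left (h3 u v)])
    (fun u v v' => by
      show PD.b3 Γ u.1 (v.1 + v'.1) / 3 = _
      rw [PD.b3_add_right, Int.add_ediv_of_dvd_left (h3 u v)])
    (fun u v hu => by
      rw [bd_eq_zero_iff] at hu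
      show PD.b3 Γ u.1 v.1 / 3 = 0
      rw [PD.b3_of_isInv Γ hu (mem_Symb_iff_isPot.1 v.2)]
      rfl)
    (fun u v hv => by
      rw [bd_eq_zero_iff] at hv
      show PD.b3 Γ u.1 v.1 / 3 = 0
      rw [b3_inv_right Γ u.2 hv]
      rfl)
  refine ⟨B', fun u v => ?_⟩
  rw [hB']
  exact Int.mul_ediv_cancel' (h3 u v)

variable {Γ}

theorem IsPd.swap {pd : H Γ ℤ →ₗ[ℤ] H Γ ℤ →ₗ[ℤ] ℤ} (hpd : IsPd Γ pd) (x y : H Γ ℤ) :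
    pd y x = - pd x y := by
  obtain ⟨u, rfl⟩ := bd_surjective x
  obtain ⟨v, rfl⟩ := bd_surjective y
  have h1 := hpd u v
  have h2 := hpd v u
  rw [PD.b3_swap Γ u.1 v.1] at h2
  omega

/-- **(PD1)** -/
theorem IsPd.nondeg {pd : H Γ ℤ →ₗ[ℤ] H Γ ℤ →ₗ[ℤ] ℤ} (hpd : IsPd Γ pd)
    (hneg : (-1 : SL(2, ℤ)) ∈ Γ) {p : ℕ} (hp : p.Prime) (hp2 : p ≠ 2) (x : H Γ ℤ)
    (h : ∀ y, (p : ℤ) ∣ pd x y) : ∃ x', x = (p : ℤ) • x' := by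
  obtain ⟨u, rfl⟩ := bd_surjective x
  obtain ⟨B, Q', hB, hQ', hu⟩ := PD.nondeg Γ hneg hp hp2 (mem_Symb_iff_isPot.1 u.2) (by
    intro P hP
    have h1 := hpd u ⟨P, mem_Symb_iff_isPot.2 hP⟩
    obtain ⟨k, hk⟩ := h (bd Γ ℤ ⟨P, mem_Symb_iff_isPot.2 hP⟩)
    rw [PD.b3_swap Γ u.1 P, ← h1, hk]
    exact ⟨-k, by ring⟩)
  refine ⟨bd Γ ℤ ⟨Q', mem_Symb_iff_isPot.2 hQ'⟩, ?_⟩
  have e : u = (⟨B, Inv_le_Symb hB⟩ : Symb Γ ℤ) + (p : ℤ) • ⟨Q', mem_Symb_iff_isPot.2 hQ'⟩ := by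
    apply Subtype.ext
    funext s
    rw [hu s]
    rfl
  have hB0 : bd Γ ℤ (⟨B, Inv_le_Symb hB⟩ : Symb Γ ℤ) = 0 := (bd_eq_zero_iff _).2 hB
  rw [e, map_add, _root_.map_smul, hB0, zero_add]

/-- **(PD2)** -/
theorem IsPd.res_cores {Γ' : Subgroup SL(2, ℤ)} [Fintype (SL(2, ℤ) ⧸ Γ')]
    [Fintype (Γ ⧸ Γ'.subgroupOf Γ)] (hle : Γ' ≤ Γ)
    {pd : H Γ ℤ →ₗ[ℤ] H Γ ℤ →ₗ[ℤ] ℤ} (hpd : IsPd Γ pd)
    {pd' : H Γ' ℤ →ₗ[ℤ] H Γ' ℤ →ₗ[ℤ] ℤ} (hpd' : IsPd Γ' pd')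
    {D : (OnePoint ℚ → ℤ) →ₗ[ℤ] (OnePoint ℚ → ℤ)} (hD : IsOp Γ' Γ D)
    (hDtr : ∀ v ∈ Symb Γ' ℤ, D v - PD.tr Γ Γ' v ∈ Inv Γ ℤ) (x : H Γ ℤ) (y : H Γ' ℤ) :
    pd' (opH Γ Γ' LinearMap.id x) y = pd x (opH Γ' Γ D y) := by
  obtain ⟨u, rfl⟩ := bd_surjective x
  obtain ⟨v, rfl⟩ := bd_surjective y
  rw [opH_bd (isOp_res hle), opH_bd hD]
  have h1 := hpd' ⟨LinearMap.id u.1, (isOp_res hle).symb u.1 u.2⟩ v
  have h2 := hpd u ⟨D v.1, hD.symb v.1 v.2⟩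
  have h3 : PD.b3 Γ' u.1 v.1 = PD.b3 Γ u.1 (PD.tr Γ Γ' v.1) :=
    PD.b3_tr Γ hle (mem_Symb_iff_isPot.1 u.2) (mem_Symb_iff_isPot.1 v.2)
  have h4 : PD.b3 Γ u.1 (D v.1) = PD.b3 Γ u.1 (PD.tr Γ Γ' v.1) := by
    have e : D v.1 = PD.tr Γ Γ' v.1 + (D v.1 - PD.tr Γ Γ' v.1) := by abel
    rw [e, PD.b3_add_right, b3_inv_right Γ u.2 (hDtr v.1 v.2), add_zero]
  have h1' : 3 * pd' (bd Γ' ℤ ⟨LinearMap.id u.1, (isOp_res hle).symb u.1 u.2⟩) (bd Γ' ℤ v)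
      = PD.b3 Γ u.1 (PD.tr Γ Γ' v.1) := by rw [← h3]; exact h1
  have h2' : 3 * pd (bd Γ ℤ u) (bd Γ ℤ ⟨D v.1, hD.symb v.1 v.2⟩)
      = PD.b3 Γ u.1 (PD.tr Γ Γ' v.1) := by rw [← h4]; exact h2
  omega

theorem isOp_pull_of_norm {A : Type*} [AddCommGroup A] {Γ : Subgroup SL(2, ℤ)} (W : GL (Fin 2) ℚ)
    (hnorm : ∀ γ ∈ Γ, ∃ γ' ∈ Γ, ∀ s : OnePoint ℚ, W • (mapGL ℚ γ • s) = mapGL ℚ γ' • (W • s)) :
    IsOp Γ Γ (pull A W) := by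
  constructor
  · intro u hu γ hγ s t
    obtain ⟨γ', hγ', h⟩ := hnorm γ hγ
    simp only [pull_apply]
    rw [h, h]
    exact hu γ' hγ' _ _
  · intro u hu γ hγ s
    obtain ⟨γ', hγ', h⟩ := hnorm γ hγ
    simp only [pull_apply]
    rw [h]
    exact hu γ' hγ' _

/-- **(PD3)** -/
theorem IsPd.pull_W {pd : H Γ ℤ →ₗ[ℤ] H Γ ℤ →ₗ[ℤ] ℤ} (hpd : IsPd Γ pd)
    (hneg : (-1 : SL(2, ℤ)) ∈ Γ) (W : GL (Fin 2) ℚ)
    (hW : 0 < (W : Matrix (Fin 2) (Fin 2) ℚ).det)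
    (hnorm : ∀ γ ∈ Γ, ∃ γ' ∈ Γ, ∀ s : OnePoint ℚ, W • (mapGL ℚ γ • s) = mapGL ℚ γ' • (W • s))
    (x y : H Γ ℤ) :
    pd (opH Γ Γ (pull ℤ W) x) (opH Γ Γ (pull ℤ W) y) = pd x y := by
  obtain ⟨u, rfl⟩ := bd_surjective x
  obtain ⟨v, rfl⟩ := bd_surjective y
  have hop := isOp_pull_of_norm (A := ℤ) W hnorm
  rw [opH_bd hop, opH_bd hop]
  have h1 := hpd ⟨pull ℤ W u.1, hop.symb u.1 u.2⟩ ⟨pull ℤ W v.1, hop.symb v.1 v.2⟩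
  have h2 := hpd u v
  have h3 : PD.b3 Γ (pull ℤ W u.1) (pull ℤ W v.1) = PD.b3 Γ u.1 v.1 :=
    PD.b3_comp_W Γ hneg W hW hnorm (mem_Symb_iff_isPot.1 u.2) (mem_Symb_iff_isPot.1 v.2)
  simp only at h1
  rw [h3] at h1
  omega

end pd

end Fermat.Agent.S41
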